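/-
S58 programme, brick (b) (helper21): transfer of the Frobenius relation from the residue
characteristic to the torsion over `ℚ̄`.  File 1: the residue map of a valuation subring as a
total function `L → κ` (junk value `0` outside the valuation ring), with its algebra.

Mathlib only.
-/
import Mathlib

set_option autoImplicit false

namespace Fermat.Agent.RedTors

open IsLocalRing

variable {L : Type*} [Field L] (A : ValuationSubring L)

/-- The residue of an element of `L` (junk value `0` outside `A`). -/
noncomputable def resL (t : L) : ResidueField A :=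
  open Classical in if h : t ∈ A then residue A ⟨t, h⟩ else 0

theorem resL_of_mem {t : L} (h : t ∈ A) : resL A t = residue A ⟨t, h⟩ := by
  unfold resL
  rw [dif_pos h]

@[simp] theorem resL_coe (t : A) : resL A (t : L) = residue A t := by
  rw [resL_of_mem A t.2]

theorem mem_iff_val {t : L} : t ∈ A ↔ A.valuation t ≤ 1 := (A.valuation_le_one_iff t).symm

theorem resL_zero : resL A (0 : L) = 0 := by
  rw [resL_of_mem A A.zero_mem]
  exact map_zero _

theorem resL_one : resL A (1 : L) = 1 := by
  rw [resL_of_mem A A.one_mem]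
  exact map_one _

theorem resL_add {s t : L} (hs : s ∈ A) (ht : t ∈ A) :
    resL A (s + t) = resL A s + resL A t := by
  rw [resL_of_mem A hs, resL_of_mem A ht, resL_of_mem A (A.add_mem _ _ hs ht), ← map_add]
  rfl

theorem resL_mul {s t : L} (hs : s ∈ A) (ht : t ∈ A) :
    resL A (s * t) = resL A s * resL A t := by
  rw [resL_of_mem A hs, resL_of_mem A ht, resL_of_mem A (A.mul_mem _ _ hs ht), ← map_mul]
  rfl

theorem resL_neg {s : L} (hs : s ∈ A) : resL A (-s) = -resL A s := by
  rw [resL_of_mem A hs, resL_of_mem A (A.neg_mem _ hs), ← map_neg]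
  rfl

theorem resL_sub {s t : L} (hs : s ∈ A) (ht : t ∈ A) :
    resL A (s - t) = resL A s - resL A t := by
  rw [sub_eq_add_neg, resL_add A hs (A.neg_mem _ ht), resL_neg A ht, sub_eq_add_neg]

theorem resL_pow {s : L} (hs : s ∈ A) (n : ℕ) : resL A (s ^ n) = resL A s ^ n := by
  rw [resL_of_mem A hs, resL_of_mem A (pow_mem hs n), ← map_pow]
  rfl

theorem intCast_mem' (n : ℤ) : (n : L) ∈ A := _root_.intCast_mem A n

theorem natCast_mem' (n : ℕ) : (n : L) ∈ A := _root_.natCast_mem A n

theorem resL_intCast (n : ℤ) : resL A (n : L) = (n : ResidueField A) := by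
  rw [resL_of_mem A (intCast_mem' A n)]
  have : (⟨(n : L), intCast_mem' A n⟩ : A) = (n : A) := Subtype.ext (by simp)
  rw [this, map_intCast]

theorem resL_natCast (n : ℕ) : resL A (n : L) = (n : ResidueField A) := by
  have := resL_intCast A (n : ℤ)
  simpa using this

theorem resL_two : resL A (2 : L) = 2 := by
  have := resL_natCast A 2
  simpa using this

theorem resL_three : resL A (3 : L) = 3 := by
  have := resL_natCast A 3
  simpa using this

theorem two_mem : (2 : L) ∈ A := by simp

theorem three_mem : (3 : L) ∈ A := by simp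

theorem resL_eq_zero_iff {t : L} (ht : t ∈ A) : resL A t = 0 ↔ A.valuation t < 1 := by
  rw [resL_of_mem A ht, residue_eq_zero_iff, A.valuation_lt_one_iff]

theorem resL_ne_zero_iff {t : L} (ht : t ∈ A) : resL A t ≠ 0 ↔ A.valuation t = 1 := by
  rw [Ne, resL_eq_zero_iff A ht, not_lt]
  constructor
  · intro h
    exact le_antisymm ((mem_iff_val A).mp ht) h
  · intro h
    exact h.ge

theorem mem_of_val_eq_one {t : L} (ht : A.valuation t = 1) : t ∈ A :=
  (mem_iff_val A).mpr ht.le

theorem resL_eq_iff {s t : L} (hs : s ∈ A) (ht : t ∈ A) :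
    resL A s = resL A t ↔ A.valuation (s - t) < 1 := by
  rw [← resL_eq_zero_iff A (sub_mem hs ht), resL_sub A hs ht, sub_eq_zero]

theorem inv_mem_of_val_eq_one {t : L} (ht : A.valuation t = 1) : t⁻¹ ∈ A := by
  rw [mem_iff_val, map_inv₀, ht, inv_one]

theorem resL_inv {t : L} (ht : A.valuation t = 1) : resL A t⁻¹ = (resL A t)⁻¹ := by
  have hmem := mem_of_val_eq_one A ht
  have hne : resL A t ≠ 0 := (resL_ne_zero_iff A hmem).mpr ht
  have ht0 : t ≠ 0 := by
    rintro rfl
    rw [map_zero] at ht
    exact zero_ne_one ht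
  apply eq_inv_of_mul_eq_one_left
  rw [← resL_mul A (inv_mem_of_val_eq_one A ht) hmem, inv_mul_cancel₀ ht0, resL_one]

theorem div_mem {s t : L} (hs : s ∈ A) (ht : A.valuation t = 1) : s / t ∈ A := by
  rw [div_eq_mul_inv]
  exact A.mul_mem _ _ hs (inv_mem_of_val_eq_one A ht)

theorem resL_div {s t : L} (hs : s ∈ A) (ht : A.valuation t = 1) :
    resL A (s / t) = resL A s / resL A t := by
  rw [div_eq_mul_inv, resL_mul A hs (inv_mem_of_val_eq_one A ht), resL_inv A ht, div_eq_mul_inv]

end Fermat.Agent.RedTors
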