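/-
S58 programme, brick (b) (helper21).  File 2: reduction of points of a Weierstrass curve with
good reduction at a valuation subring, on the torsion of odd order prime to the residue
characteristic:  the reduction map is additive and injective there.

Setting: `L` a field, `A` a valuation subring, `κ` its residue field, `WA` a Weierstrass curve with
coefficients in `A`, `gen WA` its generic fibre (over `L`), `spe WA` its special fibre (over `κ`),
`(spe WA).Δ ≠ 0` (good reduction).

Inputs: `S05.Kernel` (the kernel of reduction has no prime-to-residue-characteristic torsion) and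
`ES.EC.CongE1_20` (congruent torsion points are equal).
-/
import Mathlib
import Fermat.Agent.RedTors.ResL
import Fermat.Agent.S05.Kernel
import Fermat.Agent.ES.EC.CongE1_20

set_option autoImplicit false

open WeierstrassCurve WeierstrassCurve.Affine IsLocalRing

namespace Fermat.Agent.RedTors

open Fermat.Agent.S05.Kernel Fermat.Agent.ES.EC.CongE1_20

variable {L : Type*} [Field L] (A : ValuationSubring L)

/-- quotients by units of `A`, with their residues. -/
theorem exists_div (a u : A) (hu : residue A u ≠ 0) :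
    ∃ q : A, (q : L) = (a : L) / (u : L) ∧ residue A q = residue A a / residue A u := by
  have hunit : IsUnit u := (residue_ne_zero_iff_isUnit u).mp hu
  obtain ⟨w, rfl⟩ := hunit
  refine ⟨a * (w⁻¹ : Aˣ), ?_, ?_⟩
  · have h1 : ((w : A) : L) * (((w⁻¹ : Aˣ) : A) : L) = 1 := by
      rw [← MulMemClass.coe_mul, Units.mul_inv, OneMemClass.coe_one]
    have hw0 : ((w : A) : L) ≠ 0 := left_ne_zero_of_mul_eq_one h1
    rw [eq_div_iff hw0]
    push_cast
    rw [mul_assoc, mul_comm (((w⁻¹ : Aˣ) : A) : L), h1, mul_one]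
  · rw [eq_div_iff hu, map_mul, mul_assoc, ← map_mul, Units.inv_mul, map_one, mul_one]

variable (WA : WeierstrassCurve A)

/-- the generic fibre. -/
abbrev gen : Affine L := (WA.map A.subtype).toAffine

/-- the special fibre. -/
abbrev spe : Affine (ResidueField A) := (WA.map (residue A)).toAffine

variable {A}

theorem subtype_apply' (x : A) : A.subtype x = (x : L) := rfl

theorem integralCoeffs_gen : IntegralCoeffs A.valuation (gen A WA) := by
  refine ⟨?_, ?_, ?_, ?_, ?_⟩
  · exact A.valuation_le_one WA.a₁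
  · exact A.valuation_le_one WA.a₂
  · exact A.valuation_le_one WA.a₃
  · exact A.valuation_le_one WA.a₄
  · exact A.valuation_le_one WA.a₆

theorem equation_gen_iff (x y : A) :
    (gen A WA).Equation (x : L) (y : L) ↔ WA.toAffine.Equation x y :=
  Affine.map_equation WA.toAffine (f := A.subtype) A.subtype_injective x y

theorem equation_spe {x y : A} (h : (gen A WA).Equation (x : L) (y : L)) :
    (spe A WA).Equation (residue A x) (residue A y) :=
  Affine.Equation.map (residue A) ((equation_gen_iff WA x y).mp h)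

theorem nonsingular_spe (hΔ : (spe A WA).Δ ≠ 0) {x y : A}
    (h : (gen A WA).Equation (x : L) (y : L)) :
    (spe A WA).Nonsingular (residue A x) (residue A y) :=
  ((spe A WA).equation_iff_nonsingular_of_Δ_ne_zero hΔ).mp (equation_spe WA h)

theorem negY_gen (x y : A) : (gen A WA).negY (x : L) (y : L) = ((WA.toAffine.negY x y : A) : L) :=
  Affine.map_negY (W' := WA.toAffine) A.subtype x y

theorem negY_spe (x y : A) :
    (spe A WA).negY (residue A x) (residue A y) = residue A (WA.toAffine.negY x y) :=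
  Affine.map_negY (W' := WA.toAffine) (residue A) x y

theorem addX_gen (x₁ x₂ ℓ : A) :
    (gen A WA).addX (x₁ : L) (x₂ : L) (ℓ : L) = ((WA.toAffine.addX x₁ x₂ ℓ : A) : L) :=
  Affine.map_addX (W' := WA.toAffine) A.subtype x₁ x₂ ℓ

theorem addX_spe (x₁ x₂ ℓ : A) :
    (spe A WA).addX (residue A x₁) (residue A x₂) (residue A ℓ)
      = residue A (WA.toAffine.addX x₁ x₂ ℓ) :=
  Affine.map_addX (W' := WA.toAffine) (residue A) x₁ x₂ ℓ

theorem addY_gen (x₁ x₂ y₁ ℓ : A) :
    (gen A WA).addY (x₁ : L) (x₂ : L) (y₁ : L) (ℓ : L)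
      = ((WA.toAffine.addY x₁ x₂ y₁ ℓ : A) : L) :=
  Affine.map_addY (W' := WA.toAffine) A.subtype x₁ y₁ x₂ ℓ

theorem addY_spe (x₁ x₂ y₁ ℓ : A) :
    (spe A WA).addY (residue A x₁) (residue A x₂) (residue A y₁) (residue A ℓ)
      = residue A (WA.toAffine.addY x₁ x₂ y₁ ℓ) :=
  Affine.map_addY (W' := WA.toAffine) (residue A) x₁ y₁ x₂ ℓ

/-! ### slopes -/

section Slope

variable [DecidableEq L] [DecidableEq (ResidueField A)]

/-- the slope of a chord reduces. -/
theorem exists_slope_of_X_ne {x₁ x₂ y₁ y₂ : A} (hx : residue A x₁ ≠ residue A x₂) :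
    ∃ ℓ : A, (ℓ : L) = (gen A WA).slope (x₁ : L) (x₂ : L) (y₁ : L) (y₂ : L) ∧
      residue A ℓ = (spe A WA).slope (residue A x₁) (residue A x₂) (residue A y₁)
        (residue A y₂) := by
  have hx' : (x₁ : L) ≠ (x₂ : L) := fun h => hx (by rw [Subtype.ext h])
  obtain ⟨q, hq1, hq2⟩ := exists_div A (y₁ - y₂) (x₁ - x₂)
    (by rw [map_sub]; exact sub_ne_zero.mpr hx)
  refine ⟨q, ?_, ?_⟩
  · rw [slope_of_X_ne hx', hq1]
    push_cast
    rfl
  · rw [slope_of_X_ne hx, hq2, map_sub, map_sub]

/-- the slope of a tangent reduces. -/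
theorem exists_slope_of_Y_ne {x y : A}
    (hy : residue A y ≠ (spe A WA).negY (residue A x) (residue A y)) :
    ∃ ℓ : A, (ℓ : L) = (gen A WA).slope (x : L) (x : L) (y : L) (y : L) ∧
      residue A ℓ = (spe A WA).slope (residue A x) (residue A x) (residue A y)
        (residue A y) := by
  have hy' : (y : L) ≠ (gen A WA).negY (x : L) (y : L) := by
    intro h
    apply hy
    rw [negY_gen] at h
    rw [negY_spe, ← Subtype.ext h]
  obtain ⟨q, hq1, hq2⟩ := exists_div A
    (3 * x ^ 2 + 2 * WA.a₂ * x + WA.a₄ - WA.a₁ * y) (y - WA.toAffine.negY x y)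
    (by rw [map_sub, ← negY_spe]; exact sub_ne_zero.mpr hy)
  refine ⟨q, ?_, ?_⟩
  · rw [slope_of_Y_ne rfl hy', hq1, negY_gen]
    simp only [WeierstrassCurve.map_a₁, WeierstrassCurve.map_a₂, WeierstrassCurve.map_a₄,
      subtype_apply']
    push_cast
    rfl
  · rw [slope_of_Y_ne rfl hy, hq2, negY_spe]
    simp only [WeierstrassCurve.map_a₁, WeierstrassCurve.map_a₂, WeierstrassCurve.map_a₄,
      map_sub, map_add, map_mul, map_pow, map_ofNat]

end Slope

/-! ### a point of odd order prime to the residue characteristic does not reduce to `2`-torsion -/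

section Psi2

variable {K : Type*} [Field K] {Γ₀ : Type*} [LinearOrderedCommGroupWithZero Γ₀]
  {v : Valuation K Γ₀}

/-- a large slope gives a point of the kernel of reduction. -/
theorem val_addX_gt {V : Affine K} (hW : IntegralCoeffs v V) {x₁ x₂ ℓ : K} (hx₁ : v x₁ ≤ 1)
    (hx₂ : v x₂ ≤ 1) (hℓ : 1 < v ℓ) : 1 < v (V.addX x₁ x₂ ℓ) := by
  obtain ⟨ha₁, ha₂, -, -, -⟩ := hW
  have hvL2 : v (ℓ ^ 2) = v ℓ ^ 2 := map_pow v ℓ 2
  have hLlt : v ℓ < v ℓ ^ 2 := by
    have hpos : 0 < v ℓ := lt_trans zero_lt_one hℓ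
    calc v ℓ = v ℓ * 1 := (mul_one _).symm
      _ < v ℓ * v ℓ := mul_lt_mul_of_pos_left hℓ hpos
      _ = v ℓ ^ 2 := (sq _).symm
  have hrest : v (V.a₁ * ℓ - V.a₂ - x₁ - x₂) ≤ v ℓ := by
    have t1 : v (V.a₁ * ℓ) ≤ v ℓ := by
      rw [map_mul]
      calc v V.a₁ * v ℓ ≤ 1 * v ℓ := mul_le_mul_left ha₁ _
        _ = v ℓ := one_mul _
    have t2 : v V.a₂ ≤ v ℓ := ha₂.trans hℓ.le
    have t3 : v x₁ ≤ v ℓ := hx₁.trans hℓ.le
    have t4 : v x₂ ≤ v ℓ := hx₂.trans hℓ.le
    exact v.map_sub_le (v.map_sub_le (v.map_sub_le t1 t2) t3) t4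
  have hsum : V.addX x₁ x₂ ℓ = ℓ ^ 2 + (V.a₁ * ℓ - V.a₂ - x₁ - x₂) := by
    rw [addX]; ring
  rw [hsum, v.map_add_eq_of_lt_left (by rw [hvL2]; exact lt_of_le_of_lt hrest hLlt), hvL2]
  exact lt_trans hℓ hLlt

end Psi2

section Torsion

variable [DecidableEq L]

/-- torsion points prime to the residue characteristic have integral coordinates. -/
theorem mem_of_nsmul_eq_zero {x y : L} (h : (gen A WA).Nonsingular x y) {m : ℕ}
    (hmv : A.valuation (m : L) = 1) (hP : m • Point.some x y h = 0) : x ∈ A ∧ y ∈ A := by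
  have hint := integralCoeffs_gen WA
  have hvx : A.valuation x ≤ 1 := x_integral_of_nsmul_eq_zero hint h hmv hP
  have hvy : A.valuation y ≤ 1 := by
    by_contra hy
    exact absurd (vx_of_vy hint h.1 (not_le.mp hy)) (not_lt.mpr hvx)
  exact ⟨(mem_iff_val A).mpr hvx, (mem_iff_val A).mpr hvy⟩

/-- **A nonzero point of odd order prime to the residue characteristic does not reduce to a
`2`-torsion point** (good reduction). -/
theorem residue_ne_negY (hΔ : (spe A WA).Δ ≠ 0) {x y : A}
    (h : (gen A WA).Nonsingular (x : L) (y : L)) {m : ℕ} (hm : Odd m)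
    (hmv : A.valuation (m : L) = 1) (hP : m • Point.some (x : L) (y : L) h = 0) :
    residue A y ≠ (spe A WA).negY (residue A x) (residue A y) := by
  intro hcon
  have hint := integralCoeffs_gen WA
  -- the point is not `2`-torsion
  have hne : (y : L) ≠ (gen A WA).negY (x : L) (y : L) := by
    intro hy
    have h2 : Point.some (x : L) (y : L) h + Point.some (x : L) (y : L) h = 0 :=
      Point.add_self_of_Y_eq hy
    obtain ⟨k, hk⟩ := hm
    have e1 : m • Point.some (x : L) (y : L) h
        = k • (Point.some (x : L) (y : L) h + Point.some (x : L) (y : L) h)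
          + Point.some (x : L) (y : L) h := by
      rw [hk, add_smul, mul_comm, mul_smul, one_smul, two_nsmul]
    rw [hP, h2, nsmul_zero, zero_add] at e1
    exact Point.some_ne_zero h e1.symm
  -- the numerator of the slope is a unit, the denominator is not
  have hns := nonsingular_spe WA hΔ h.1
  rw [nonsingular_iff] at hns
  have hN : (spe A WA).a₁ * residue A y
      ≠ 3 * residue A x ^ 2 + 2 * (spe A WA).a₂ * residue A x + (spe A WA).a₄ := by
    rcases hns.2 with h1 | h1
    · exact h1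
    · exact absurd hcon h1
  set N : A := 3 * x ^ 2 + 2 * WA.a₂ * x + WA.a₄ - WA.a₁ * y with hNdef
  set D : A := y - WA.toAffine.negY x y with hDdef
  have hNres : residue A N ≠ 0 := by
    rw [hNdef]
    simp only [WeierstrassCurve.map_a₁, WeierstrassCurve.map_a₂, WeierstrassCurve.map_a₄] at hN
    simp only [map_sub, map_add, map_mul, map_pow, map_ofNat]
    exact sub_ne_zero.mpr (Ne.symm hN)
  have hDres : residue A D = 0 := by
    rw [hDdef, map_sub, ← negY_spe, sub_eq_zero]
    exact hcon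
  have hvN : A.valuation (N : L) = 1 :=
    (A.valuation_eq_one_iff N).mp ((residue_ne_zero_iff_isUnit N).mp hNres)
  have hvD : A.valuation (D : L) < 1 :=
    (A.valuation_lt_one_iff D).mp ((residue_eq_zero_iff D).mp hDres)
  have hD0 : (D : L) ≠ 0 := by
    rw [hDdef]
    push_cast
    rw [← negY_gen]
    exact sub_ne_zero.mpr hne
  -- the slope is large
  have hslope : (gen A WA).slope (x : L) (x : L) (y : L) (y : L) = (N : L) / (D : L) := by
    rw [slope_of_Y_ne rfl hne, hNdef, hDdef, negY_gen]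
    simp only [WeierstrassCurve.map_a₁, WeierstrassCurve.map_a₂, WeierstrassCurve.map_a₄,
      subtype_apply']
    push_cast
    rfl
  have hvslope : 1 < A.valuation ((gen A WA).slope (x : L) (x : L) (y : L) (y : L)) := by
    rw [hslope, map_div₀, hvN, one_div]
    exact (one_lt_inv₀ (zero_lt_iff.mpr ((Valuation.ne_zero_iff _).mpr hD0))).mpr hvD
  -- so twice the point is in the kernel of reduction
  have hdbl : Point.some (x : L) (y : L) h + Point.some (x : L) (y : L) h
      = Point.some _ _ (nonsingular_add h h fun hxy => hne hxy.right) :=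
    Point.add_self_of_Y_ne hne
  have hE1 : InE1 A.valuation (Point.some (x : L) (y : L) h + Point.some (x : L) (y : L) h) := by
    rw [hdbl, inE1_some]
    exact val_addX_gt hint (A.valuation_le_one x) (A.valuation_le_one x) hvslope
  have hk : m • (Point.some (x : L) (y : L) h + Point.some (x : L) (y : L) h) = 0 := by
    rw [smul_add, hP, add_zero]
  have h0 := eq_zero_of_nsmul_eq_zero hint hE1 hmv hk
  rw [hdbl] at h0
  exact Point.some_ne_zero _ h0

/-- the same, as a valuation. -/
theorem val_psi2_eq_one (hΔ : (spe A WA).Δ ≠ 0) {x y : A}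
    (h : (gen A WA).Nonsingular (x : L) (y : L)) {m : ℕ} (hm : Odd m)
    (hmv : A.valuation (m : L) = 1) (hP : m • Point.some (x : L) (y : L) h = 0) :
    A.valuation (2 * (y : L) + (gen A WA).a₁ * (x : L) + (gen A WA).a₃) = 1 := by
  have h1 := residue_ne_negY WA hΔ h hm hmv hP
  rw [negY_spe, ← sub_ne_zero, ← map_sub] at h1
  have h2 := (A.valuation_eq_one_iff _).mp ((residue_ne_zero_iff_isUnit _).mp h1)
  have e : ((y - WA.toAffine.negY x y : A) : L)
      = 2 * (y : L) + (gen A WA).a₁ * (x : L) + (gen A WA).a₃ := by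
    simp only [negY, WeierstrassCurve.map_a₁, WeierstrassCurve.map_a₃, subtype_apply']
    push_cast
    ring
  rw [← e]
  exact h2

/-- **Injectivity of reduction** on the torsion of odd order prime to the residue
characteristic. -/
theorem eq_of_residue_eq (hΔ : (spe A WA).Δ ≠ 0) {x₁ y₁ x₂ y₂ : A}
    (h₁ : (gen A WA).Nonsingular (x₁ : L) (y₁ : L)) (h₂ : (gen A WA).Nonsingular (x₂ : L) (y₂ : L))
    {m : ℕ} (hm : Odd m) (hmv : A.valuation (m : L) = 1)
    (hP₁ : m • Point.some (x₁ : L) (y₁ : L) h₁ = 0) (hP₂ : m • Point.some (x₂ : L) (y₂ : L) h₂ = 0)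
    (hx : residue A x₁ = residue A x₂) (hy : residue A y₁ = residue A y₂) :
    Point.some (x₁ : L) (y₁ : L) h₁ = Point.some (x₂ : L) (y₂ : L) h₂ := by
  have hint := integralCoeffs_gen WA
  have hu := val_psi2_eq_one WA hΔ h₂ hm hmv hP₂
  have hvx : A.valuation ((x₁ : L) - (x₂ : L)) < 1 := by
    have : residue A (x₁ - x₂) = 0 := by rw [map_sub, hx, sub_self]
    have := (A.valuation_lt_one_iff _).mp ((residue_eq_zero_iff _).mp this)
    simpa using this
  have hvy : A.valuation ((y₁ : L) - (y₂ : L)) < 1 := by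
    have : residue A (y₁ - y₂) = 0 := by rw [map_sub, hy, sub_self]
    have := (A.valuation_lt_one_iff _).mp ((residue_eq_zero_iff _).mp this)
    simpa using this
  exact eq_of_congruent_of_nsmul_eq_zero hint h₁ h₂ hvx hvy hu hmv hP₁ hP₂

end Torsion

/-! ### the reduction map -/

section Red

variable [DecidableEq L] [DecidableEq (ResidueField A)]

/-- The reduction map (junk value `0` at the points with non-integral coordinates). -/
noncomputable def red (hΔ : (spe A WA).Δ ≠ 0) : (gen A WA).Point → (spe A WA).Point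
  | .zero => 0
  | .some x y h =>
    open Classical in
    if hxy : x ∈ A ∧ y ∈ A then
      Point.some (residue A ⟨x, hxy.1⟩) (residue A ⟨y, hxy.2⟩)
        (nonsingular_spe WA hΔ (x := ⟨x, hxy.1⟩) (y := ⟨y, hxy.2⟩) h.1)
    else 0

variable (hΔ : (spe A WA).Δ ≠ 0)

omit [DecidableEq L] [DecidableEq (ResidueField A)] in
theorem red_zero : red WA hΔ 0 = 0 := rfl

omit [DecidableEq L] [DecidableEq (ResidueField A)] in
theorem red_some_eq_dite (x y : L) (h : (gen A WA).Nonsingular x y) :
    red WA hΔ (Point.some x y h) =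
      open Classical in
      if hxy : x ∈ A ∧ y ∈ A then
        Point.some (residue A ⟨x, hxy.1⟩) (residue A ⟨y, hxy.2⟩)
          (nonsingular_spe WA hΔ (x := ⟨x, hxy.1⟩) (y := ⟨y, hxy.2⟩) h.1)
      else 0 := rfl

omit [DecidableEq L] [DecidableEq (ResidueField A)] in
theorem red_some (x y : A) (h : (gen A WA).Nonsingular (x : L) (y : L)) :
    red WA hΔ (Point.some (x : L) (y : L) h)
      = Point.some (residue A x) (residue A y) (nonsingular_spe WA hΔ h.1) := by
  rw [red_some_eq_dite, dif_pos ⟨x.2, y.2⟩]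

omit [DecidableEq L] [DecidableEq (ResidueField A)] in
theorem red_some_ne_zero (x y : A) (h : (gen A WA).Nonsingular (x : L) (y : L)) :
    red WA hΔ (Point.some (x : L) (y : L) h) ≠ 0 := by
  rw [red_some]
  exact Point.some_ne_zero _

omit [DecidableEq L] [DecidableEq (ResidueField A)] in
/-- the negative of an integral point, with coordinates in `A`. -/
theorem nonsingular_neg_coe {x y : A} (h : (gen A WA).Nonsingular (x : L) (y : L)) :
    (gen A WA).Nonsingular (x : L) ((WA.toAffine.negY x y : A) : L) := by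
  rw [← negY_gen]
  exact (nonsingular_neg ..).mpr h

omit [DecidableEq L] [DecidableEq (ResidueField A)] in
theorem neg_some_coe {x y : A} (h : (gen A WA).Nonsingular (x : L) (y : L)) :
    -Point.some (x : L) (y : L) h
      = Point.some (x : L) ((WA.toAffine.negY x y : A) : L) (nonsingular_neg_coe WA h) := by
  rw [Point.neg_some, Point.some.injEq]
  exact ⟨rfl, negY_gen WA x y⟩

/-- **Additivity of the reduction map** on the torsion of odd order prime to the residue
characteristic. -/
theorem red_add {m : ℕ} (hm : Odd m) (hmv : A.valuation (m : L) = 1)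
    {P Q : (gen A WA).Point} (hP : m • P = 0) (hQ : m • Q = 0) :
    red WA hΔ (P + Q) = red WA hΔ P + red WA hΔ Q := by
  rcases P with _ | ⟨x₁, y₁, h₁⟩
  · change red WA hΔ (0 + Q) = red WA hΔ 0 + red WA hΔ Q
    rw [zero_add, red_zero, zero_add]
  rcases Q with _ | ⟨x₂, y₂, h₂⟩
  · change red WA hΔ (Point.some x₁ y₁ h₁ + 0) = red WA hΔ (Point.some x₁ y₁ h₁) + red WA hΔ 0
    rw [add_zero, red_zero, add_zero]
  obtain ⟨hx₁, hy₁⟩ := mem_of_nsmul_eq_zero WA h₁ hmv hP
  obtain ⟨hx₂, hy₂⟩ := mem_of_nsmul_eq_zero WA h₂ hmv hQ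
  obtain ⟨x₁, rfl⟩ : ∃ a : A, (a : L) = x₁ := ⟨⟨x₁, hx₁⟩, rfl⟩
  obtain ⟨y₁, rfl⟩ : ∃ a : A, (a : L) = y₁ := ⟨⟨y₁, hy₁⟩, rfl⟩
  obtain ⟨x₂, rfl⟩ : ∃ a : A, (a : L) = x₂ := ⟨⟨x₂, hx₂⟩, rfl⟩
  obtain ⟨y₂, rfl⟩ : ∃ a : A, (a : L) = y₂ := ⟨⟨y₂, hy₂⟩, rfl⟩
  have h₁' := nonsingular_spe WA hΔ h₁.1
  have h₂' := nonsingular_spe WA hΔ h₂.1
  by_cases hxy : (x₁ : L) = (x₂ : L) ∧ (y₁ : L) = (gen A WA).negY (x₂ : L) (y₂ : L)
  · -- opposite points
    obtain ⟨hx, hy⟩ := hxy
    rw [Point.add_of_Y_eq hx hy, red_zero, red_some, red_some]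
    have hx' : x₁ = x₂ := Subtype.ext hx
    have hy' : y₁ = WA.toAffine.negY x₂ y₂ := by
      rw [negY_gen] at hy
      exact Subtype.ext hy
    symm
    apply Point.add_of_Y_eq
    · rw [hx']
    · rw [hy', negY_spe]
  · -- the sum is an affine point: find the slope
    have key : ∃ ℓ : A, (ℓ : L) = (gen A WA).slope (x₁ : L) (x₂ : L) (y₁ : L) (y₂ : L) ∧
        residue A ℓ = (spe A WA).slope (residue A x₁) (residue A x₂) (residue A y₁)
          (residue A y₂) ∧
        ¬ (residue A x₁ = residue A x₂ ∧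
          residue A y₁ = (spe A WA).negY (residue A x₂) (residue A y₂)) := by
      by_cases hx : (x₁ : L) = (x₂ : L)
      · -- doubling
        have hy : (y₁ : L) = (y₂ : L) := by
          rcases Y_eq_of_X_eq h₁.1 h₂.1 hx with h | h
          · exact h
          · exact absurd ⟨hx, h⟩ hxy
        have hx' : x₁ = x₂ := Subtype.ext hx
        have hy' : y₁ = y₂ := Subtype.ext hy
        subst hx' hy'
        have hne := residue_ne_negY WA hΔ h₁ hm hmv hP
        obtain ⟨ℓ, hℓ1, hℓ2⟩ := exists_slope_of_Y_ne WA hne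
        exact ⟨ℓ, hℓ1, hℓ2, fun hcon => hne hcon.2⟩
      · -- chord
        have hres : residue A x₁ ≠ residue A x₂ := by
          intro hres
          rcases Y_eq_of_X_eq h₁'.1 h₂'.1 hres with h | h
          · have := eq_of_residue_eq WA hΔ h₁ h₂ hm hmv hP hQ hres h
            rw [Point.some.injEq] at this
            exact hx this.1
          · have hQ' : m • Point.some (x₂ : L) ((WA.toAffine.negY x₂ y₂ : A) : L)
                (nonsingular_neg_coe WA h₂) = 0 := by
              rw [← neg_some_coe WA h₂, smul_neg, hQ, neg_zero]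
            rw [negY_spe] at h
            have := eq_of_residue_eq WA hΔ h₁ (nonsingular_neg_coe WA h₂) hm hmv hP hQ' hres h
            rw [Point.some.injEq] at this
            exact hx this.1
        obtain ⟨ℓ, hℓ1, hℓ2⟩ := exists_slope_of_X_ne WA (y₁ := y₁) (y₂ := y₂) hres
        exact ⟨ℓ, hℓ1, hℓ2, fun hcon => hres hcon.1⟩
    obtain ⟨ℓ, hℓ1, hℓ2, hxy'⟩ := key
    have hsum : Point.some (x₁ : L) (y₁ : L) h₁ + Point.some (x₂ : L) (y₂ : L) h₂
        = Point.some ((WA.toAffine.addX x₁ x₂ ℓ : A) : L) ((WA.toAffine.addY x₁ x₂ y₁ ℓ : A) : L)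
          (by
            rw [← addX_gen, ← addY_gen, hℓ1]
            exact nonsingular_add h₁ h₂ hxy) := by
      rw [Point.add_some hxy, Point.some.injEq, ← hℓ1, addX_gen, addY_gen]
      exact ⟨rfl, rfl⟩
    rw [hsum, red_some, red_some, red_some, Point.add_some hxy', Point.some.injEq, ← hℓ2,
      addX_spe, addY_spe]
    exact ⟨rfl, rfl⟩

omit [DecidableEq (ResidueField A)] in
/-- the reduction map kills no nonzero torsion point of odd order prime to the residue
characteristic. -/
theorem eq_zero_of_red_eq_zero {m : ℕ} (hmv : A.valuation (m : L) = 1)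
    {P : (gen A WA).Point} (hP : m • P = 0) (h0 : red WA hΔ P = 0) : P = 0 := by
  rcases P with _ | ⟨x, y, h⟩
  · rfl
  · obtain ⟨hx, hy⟩ := mem_of_nsmul_eq_zero WA h hmv hP
    obtain ⟨x, rfl⟩ : ∃ a : A, (a : L) = x := ⟨⟨x, hx⟩, rfl⟩
    obtain ⟨y, rfl⟩ : ∃ a : A, (a : L) = y := ⟨⟨y, hy⟩, rfl⟩
    exact absurd h0 (red_some_ne_zero WA hΔ x y h)

/-- **Packaged form**, for curves given up to equality: `V` over `L` is the generic fibre and `Vκ`
over the residue field the special fibre of a Weierstrass curve `WA` over `A`; `Vκ.Δ ≠ 0`; `m` odd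
and a unit of `A`.  There is a map `ρ` on points which is additive and injective on the points
killed by `m`, and given by the residues of the coordinates there. -/
theorem exists_reduction {V : Affine L} {Vκ : Affine (ResidueField A)}
    (hV : V = gen A WA) (hVκ : Vκ = spe A WA) (hΔκ : Vκ.Δ ≠ 0) {m : ℕ} (hm : Odd m)
    (hmv : A.valuation (m : L) = 1) :
    ∃ ρ : V.Point → Vκ.Point, ρ 0 = 0 ∧
      (∀ P Q : V.Point, m • P = 0 → m • Q = 0 → ρ (P + Q) = ρ P + ρ Q) ∧
      (∀ P : V.Point, m • P = 0 → ρ P = 0 → P = 0) ∧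
      (∀ (x y : L) (h : V.Nonsingular x y), m • Point.some x y h = 0 →
        x ∈ A ∧ y ∈ A ∧ ∃ h' : Vκ.Nonsingular (resL A x) (resL A y),
          ρ (Point.some x y h) = Point.some (resL A x) (resL A y) h') := by
  subst hV hVκ
  refine ⟨red WA hΔκ, red_zero WA hΔκ, fun P Q hP hQ => red_add WA hΔκ hm hmv hP hQ,
    fun P hP h0 => eq_zero_of_red_eq_zero WA hΔκ hmv hP h0, fun x y h hP => ?_⟩
  obtain ⟨hx, hy⟩ := mem_of_nsmul_eq_zero WA h hmv hP
  refine ⟨hx, hy, ?_⟩
  obtain ⟨x, rfl⟩ : ∃ a : A, (a : L) = x := ⟨⟨x, hx⟩, rfl⟩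
  obtain ⟨y, rfl⟩ : ∃ a : A, (a : L) = y := ⟨⟨y, hy⟩, rfl⟩
  rw [resL_coe, resL_coe]
  exact ⟨nonsingular_spe WA hΔκ h.1, red_some WA hΔκ x y h⟩

end Red

end Fermat.Agent.RedTors
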