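/-
S58 programme, brick (b) (helper21).  File 3: **transfer of the Frobenius relation**.

`W` an integral Weierstrass curve.  Suppose that for every good prime `r` and every field `κ` of
characteristic `r` the relation `φ² − a_r(W) φ + r = 0` holds on `(W mod r)(κ)`, `φ` the `r`-power
Frobenius (`CharRel`; this is brick (a) of the S58 programme, the Eichler–Shimura relation in
characteristic `r`).  Then a Frobenius element `σ` at a place of `ℚ̄` over `r` satisfies
`σ² − a_r(W) σ + r = 0` on the points of `W(ℚ̄)` of odd order prime to `r`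
(`ES/Q58/TraceCong20.RelQbar W`; the adapter to that name is in `RedTors/Final.lean`).

Proof: reduction modulo the place is additive and injective on the torsion of odd order prime to
`r` (`RedTors/Red.lean`) and commutes with Frobenius.
-/
import Mathlib
import Fermat.Prelude.Def_FLTPrelim_Modularity
import Fermat.Prelude.Def_FLTPrelim_GaloisRep
import Fermat.Prelude.Def_EllipticCurve_FrobeniusTrace
import Fermat.Prelude.Def_FLTPrelim_Ramification
import Fermat.Agent.RedTors.Red
import Fermat.Agent.S05.Inertia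

set_option autoImplicit false

open WeierstrassCurve WeierstrassCurve.Affine WeierstrassCurve.Affine.Point IsLocalRing

namespace Fermat.Agent.RedTors

local notation "Qb" => AlgebraicClosure ℚ
local notation "GQ" => (AlgebraicClosure ℚ ≃ₐ[ℚ] AlgebraicClosure ℚ)

/-- **The Frobenius relation in characteristic `r`** on the points of the reduction of `W`
over a field `κ` of characteristic `r`: `φ² − a_r(W) φ + r = 0`, for `φ` the map induced by (any
presentation of) the `r`-power Frobenius endomorphism of `κ`. -/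
def CharRel (W : WeierstrassCurve ℤ) (r : ℕ) (κ : Type*) [Field κ] [DecidableEq κ]
    [Algebra (ZMod r) κ] : Prop :=
  ∀ f : κ →ₐ[ZMod r] κ, (∀ t, f t = t ^ r) → ∀ T : ((W.reductionMod r)⁄κ).Point,
    Point.map f (Point.map f T) - W.apOfModel r • Point.map f T + (r : ℤ) • T = 0

section Local

variable {L : Type*} [Field L] (A : ValuationSubring L)

/-- If `A` lies over the prime `ℓ`, its residue field has characteristic `ℓ`. -/
theorem charP_residueField' {ℓ : ℕ} (hℓ : ℓ.Prime) (hA : A.LiesOverPrime ℓ) :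
    CharP (ResidueField A) ℓ := by
  rw [CharP.charP_iff_prime_eq_zero hℓ]
  obtain ⟨hmem, hmax⟩ := ValuationSubring.mem_nonunits_iff_exists_mem_maximalIdeal.mp hA
  have h1 : (⟨(ℓ : L), hmem⟩ : A) = ((ℓ : ℕ) : A) := Subtype.ext (by simp)
  rw [h1, ← residue_eq_zero_iff, map_natCast] at hmax
  exact hmax

end Local

/-- The Frobenius congruence in `ℚ̄`. -/
theorem frob_sub_pow_mem_nonunits {A : ValuationSubring Qb} {φ : GQ} {p : ℕ}
    (h : A.IsFrobeniusAt φ p) {x : Qb} (hx : x ∈ A) : φ x - x ^ p ∈ A.nonunits := by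
  set g : A.decompositionSubgroup ℚ := ⟨φ, h.mem_decompositionSubgroup⟩ with hg
  set xA : A := ⟨x, hx⟩ with hxA
  have h1 := h.smul_residue_eq (residue A xA)
  rw [← ResidueField.residue_smul, ← map_pow, ← sub_eq_zero, ← map_sub,
    residue_eq_zero_iff, ← ValuationSubring.coe_mem_nonunits_iff] at h1
  exact h1

/-- A Frobenius element preserves the valuation ring and induces the `p`-power map on
residues. -/
theorem frob_mem_and_resL {A : ValuationSubring Qb} {φ : GQ} {p : ℕ}
    (h : A.IsFrobeniusAt φ p) {x : Qb} (hx : x ∈ A) :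
    φ x ∈ A ∧ resL A (φ x) = resL A x ^ p := by
  have h1 := frob_sub_pow_mem_nonunits h hx
  have hpow : x ^ p ∈ A := pow_mem hx p
  have hmem : φ x ∈ A := by
    have : φ x = (φ x - x ^ p) + x ^ p := by ring
    rw [this]
    exact A.add_mem _ _ (A.nonunits_subset h1) hpow
  refine ⟨hmem, ?_⟩
  rw [← resL_pow A hx, resL_eq_iff A hmem hpow]
  exact (ValuationSubring.mem_nonunits_iff (A := A)).mp h1

section Main

variable (W : WeierstrassCurve ℤ)

/-- the generic fibre over `ℚ̄` as the generic fibre of the model over a valuation ring. -/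
theorem baseChange_eq_gen (A : ValuationSubring Qb) :
    ((W.map (Int.castRingHom ℚ))⁄Qb) = gen A (W.map (Int.castRingHom A)) := by
  change (W.map (Int.castRingHom ℚ)).map (algebraMap ℚ Qb)
    = (W.map (Int.castRingHom A)).map A.subtype
  rw [WeierstrassCurve.map_map, WeierstrassCurve.map_map]
  congr 1

/-- the special fibre. -/
theorem baseChange_eq_spe (A : ValuationSubring Qb) (r : ℕ)
    [Algebra (ZMod r) (ResidueField A)] :
    ((W.reductionMod r)⁄(ResidueField A)) = spe A (W.map (Int.castRingHom A)) := by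
  change (W.map (Int.castRingHom (ZMod r))).map (algebraMap (ZMod r) (ResidueField A))
    = (W.map (Int.castRingHom A)).map (residue A)
  rw [WeierstrassCurve.map_map, WeierstrassCurve.map_map]
  congr 1
  exact RingHom.ext_int _ _

theorem delta_reduction_ne_zero {r : ℕ} (hr : r.Prime) (hgood : W.IsGoodPrimeFor r)
    {κ : Type*} [Field κ] [Algebra (ZMod r) κ] : ((W.reductionMod r)⁄κ).Δ ≠ 0 := by
  intro h
  apply hgood
  have : Fact r.Prime := ⟨hr⟩
  have h1 : ((W.map (Int.castRingHom (ZMod r))).map (algebraMap (ZMod r) κ)).Δ = 0 := h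
  rw [WeierstrassCurve.map_Δ, WeierstrassCurve.map_Δ] at h1
  have h2 := (map_eq_zero_iff _ (algebraMap (ZMod r) κ).injective).mp h1
  rw [eq_intCast] at h2
  exact (ZMod.intCast_zmod_eq_zero_iff_dvd _ r).mp h2

/-- **Transfer of the Frobenius relation** from the residue characteristic to the torsion of odd
order prime to `r` over `ℚ̄`. -/
theorem rel_of_charRel
    (hchar : ∀ r : ℕ, r.Prime → W.IsGoodPrimeFor r →
      ∀ (κ : Type) [Field κ] [DecidableEq κ] [Algebra (ZMod r) κ], CharRel W r κ)
    {r : ℕ} (hr : r.Prime) (hgood : W.IsGoodPrimeFor r) {m : ℕ} (hm : Odd m) (hrm : ¬ r ∣ m)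
    {P : ValuationSubring Qb} {σ : GQ} (hP : P.LiesOverPrime r) (hσ : P.IsFrobeniusAt σ r)
    (Q : ((W.map (Int.castRingHom ℚ))⁄Qb).Point) (hQ : m • Q = 0) :
    σ • σ • Q - W.apOfModel r • (σ • Q) + r • Q = 0 := by
  classical
  have : Fact r.Prime := ⟨hr⟩
  have : CharP (ResidueField P) r := charP_residueField' P hr hP
  let : Algebra (ZMod r) (ResidueField P) := ZMod.algebra _ r
  have hmv : P.valuation ((m : ℕ) : Qb) = 1 :=
    Fermat.Agent.S05.Inertia.valuation_natCast_eq_one hr hP hrm
  have hΔκ := delta_reduction_ne_zero W hr hgood (κ := ResidueField P)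
  obtain ⟨ρ, hρ0, hρadd, hρinj, hρcoord⟩ :=
    exists_reduction (W.map (Int.castRingHom P)) (baseChange_eq_gen W P)
      (baseChange_eq_spe W P r) hΔκ hm hmv
  -- the Frobenius of the residue field
  set f : ResidueField P →ₐ[ZMod r] ResidueField P :=
    FiniteField.frobeniusAlgHom (ZMod r) (ResidueField P) with hfdef
  have hf : ∀ t, f t = t ^ r := fun t => by
    rw [hfdef, FiniteField.frobeniusAlgHom_apply, ZMod.card]
  -- `σ` preserves the torsion
  have htors : ∀ X : ((W.map (Int.castRingHom ℚ))⁄Qb).Point, m • X = 0 → m • (σ • X) = 0 := by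
    intro X hX
    rw [algEquiv_smul_def, ← map_nsmul, hX, _root_.map_zero]
  -- reduction commutes with Frobenius
  have hcompat : ∀ X : ((W.map (Int.castRingHom ℚ))⁄Qb).Point, m • X = 0 →
      ρ (σ • X) = Point.map f (ρ X) := by
    intro X hX
    have hσX := htors X hX
    rcases X with _ | ⟨x, y, h⟩
    · have h0 : σ • (0 : ((W.map (Int.castRingHom ℚ))⁄Qb).Point) = 0 := rfl
      change ρ (σ • (0 : ((W.map (Int.castRingHom ℚ))⁄Qb).Point)) = Point.map f (ρ 0)
      rw [h0, hρ0, _root_.map_zero]
    · obtain ⟨hx, hy, h', hρX⟩ := hρcoord x y h hX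
      have hsm : σ • Point.some x y h = Point.some (σ.toAlgHom x) (σ.toAlgHom y)
          ((WeierstrassCurve.Affine.baseChange_nonsingular (W.map (Int.castRingHom ℚ))
            (f := σ.toAlgHom) σ.toAlgHom.injective x y).mpr h) := rfl
      rw [hsm] at hσX ⊢
      obtain ⟨-, -, h'', hρσX⟩ := hρcoord _ _ _ hσX
      rw [hρσX, hρX, Point.map_some, Point.some.injEq]
      have e1 := (frob_mem_and_resL hσ hx).2
      have e2 := (frob_mem_and_resL hσ hy).2
      exact ⟨by rw [hf]; exact e1, by rw [hf]; exact e2⟩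
  -- the torsion subgroup and the reduction homomorphism
  set T : AddSubgroup ((W.map (Int.castRingHom ℚ))⁄Qb).Point :=
    (nsmulAddMonoidHom (α := ((W.map (Int.castRingHom ℚ))⁄Qb).Point) m).ker with hT
  have hmemT : ∀ X : ((W.map (Int.castRingHom ℚ))⁄Qb).Point, X ∈ T ↔ m • X = 0 := by
    intro X
    rw [hT, AddMonoidHom.mem_ker, nsmulAddMonoidHom_apply]
  let g : T →+ ((W.reductionMod r)⁄(ResidueField P)).Point :=
    AddMonoidHom.mk' (fun t => ρ t.1)
      (fun a b => hρadd a.1 b.1 ((hmemT _).mp a.2) ((hmemT _).mp b.2))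
  have hg : ∀ t : T, g t = ρ t.1 := fun _ => rfl
  have hQ1 : σ • Q ∈ T := (hmemT _).mpr (htors Q hQ)
  have hQ2 : σ • σ • Q ∈ T := (hmemT _).mpr (htors _ (htors Q hQ))
  have hQ0 : Q ∈ T := (hmemT _).mpr hQ
  set R : T := (⟨σ • σ • Q, hQ2⟩ : T) - W.apOfModel r • (⟨σ • Q, hQ1⟩ : T) + r • (⟨Q, hQ0⟩ : T)
    with hR
  have hRcoe : (R : ((W.map (Int.castRingHom ℚ))⁄Qb).Point)
      = σ • σ • Q - W.apOfModel r • (σ • Q) + r • Q := by
    rw [hR]
    push_cast
    rfl
  have hgR : g R = 0 := by
    rw [hR, map_add, map_sub, map_zsmul, map_nsmul, hg, hg, hg]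
    change ρ (σ • σ • Q) - W.apOfModel r • ρ (σ • Q) + r • ρ Q = 0
    rw [hcompat _ (htors Q hQ), hcompat Q hQ]
    have := hchar r hr hgood (ResidueField P) f hf (ρ Q)
    rw [natCast_zsmul] at this
    exact this
  rw [← hRcoe]
  have := hρinj R.1 ((hmemT _).mp R.2) (by rw [← hg]; exact hgR)
  exact this

end Main

end Fermat.Agent.RedTors
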