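/-
S58 programme, brick (b) (helper21).  Adapter: the transfer theorem `RedTors.rel_of_charRel` in the
vocabulary of `ES/Q58/TraceCong20`:  the Frobenius relation in characteristic `r` (`CharRel`, brick
(a)) for all good primes `r` gives `TraceCong20.RelQbar W`, hence the field `trace` of
`ECIface12.ECFacts W`.
-/
import Mathlib
import Fermat.Agent.RedTors.RelQbar
import Fermat.Agent.ES.Q58.TraceCong20

set_option autoImplicit false

open WeierstrassCurve

namespace Fermat.Agent.RedTors

/-- **Brick (b).**  The Frobenius relation in every good characteristic gives the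
Eichler–Shimura relation on the generic fibre. -/
theorem relQbar_of_charRel (W : WeierstrassCurve ℤ)
    (hchar : ∀ r : ℕ, r.Prime → W.IsGoodPrimeFor r →
      ∀ (κ : Type) [Field κ] [DecidableEq κ] [Algebra (ZMod r) κ], CharRel W r κ) :
    Fermat.Agent.ES.Q58.TraceCong20.RelQbar W := by
  intro r hr hgood m hm hrm P σ hP hσ Q hQ
  exact rel_of_charRel W hchar hr hgood hm hrm hP hσ Q hQ

end Fermat.Agent.RedTors
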