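/-
S58 programme, brick (b) (helper21).  Last step of `HREL`: the Frobenius relation in characteristic
`r` in the exact shape announced for brick (a) (`Fermat.Agent.FrobRel.frobenius_relation`, report
129 of helper2), taken here as a HYPOTHESIS `FrobeniusRelationStatement`, gives
`TraceCong20.RelQbar W` for every integral Weierstrass curve `W`.

Once brick (a) lands, `HREL := fun W _ => relQbar_of_frobeniusRelation W @frobenius_relation`.
-/
import Mathlib
import Fermat.Agent.RedTors.Final

set_option autoImplicit false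

open WeierstrassCurve WeierstrassCurve.Affine

namespace Fermat.Agent.RedTors

/-- The statement of brick (a) (for fields in `Type`): the Frobenius relation
`φ² − (r + 1 − #E(𝔽_r)) φ + r = 0` on the points of an elliptic curve `E` over `𝔽_r` with values
in an arbitrary field `L ⊇ 𝔽_r`. -/
def FrobeniusRelationStatement : Prop :=
  ∀ {r : ℕ} [Fact r.Prime] (E : WeierstrassCurve (ZMod r)) (_ : E.Δ ≠ 0)
    {L : Type} [Field L] [Algebra (ZMod r) L] [DecidableEq L]
    (F : L →ₐ[ZMod r] L) (_ : ∀ x, F x = x ^ r) (Q : (E⁄L).Point),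
    Point.map (W' := E) F (Point.map (W' := E) F Q)
      - ((r : ℤ) + 1 - (Nat.card E.toAffine.Point : ℤ)) • Point.map (W' := E) F Q
      + (r : ℤ) • Q = 0

theorem apOfModel_eq (W : WeierstrassCurve ℤ) (r : ℕ) :
    W.apOfModel r = (r : ℤ) + 1 - (Nat.card (W.reductionMod r).toAffine.Point : ℤ) := by
  unfold WeierstrassCurve.apOfModel WeierstrassCurve.traceOfFrobenius WeierstrassCurve.card
  rw [Nat.card_zmod]

/-- brick (a) in the shape consumed by `relQbar_of_charRel`. -/
theorem charRel_of_frobeniusRelation (h : FrobeniusRelationStatement) (W : WeierstrassCurve ℤ)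
    {r : ℕ} (hr : r.Prime) (hgood : W.IsGoodPrimeFor r) (κ : Type) [Field κ] [DecidableEq κ]
    [Algebra (ZMod r) κ] : CharRel W r κ := by
  intro f hf T
  have : Fact r.Prime := ⟨hr⟩
  have hΔ : (W.reductionMod r).Δ ≠ 0 := by
    intro h0
    apply hgood
    unfold WeierstrassCurve.reductionMod at h0
    rw [WeierstrassCurve.map_Δ, eq_intCast] at h0
    exact (ZMod.intCast_zmod_eq_zero_iff_dvd _ r).mp h0
  rw [apOfModel_eq]
  exact h (W.reductionMod r) hΔ f hf T

/-- **`HREL` from brick (a).** -/
theorem relQbar_of_frobeniusRelation (h : FrobeniusRelationStatement) (W : WeierstrassCurve ℤ) :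
    Fermat.Agent.ES.Q58.TraceCong20.RelQbar W :=
  relQbar_of_charRel W fun _ hr hgood κ _ _ _ => charRel_of_frobeniusRelation h W hr hgood κ

end Fermat.Agent.RedTors
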