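/-
S58 programme (helper21): integration check / glue.  `TraceCong20.RelQbar W` for every integral
Weierstrass curve `W`, from Manin's lemma in the form of Team A (`FrobRel.ManinStatement`).
The ONLY remaining input of `HREL` is therefore Manin's lemma (brick (a3)).
-/
import Mathlib
import Fermat.Agent.RedTors.Adapter
import Fermat.Agent.FrobRel.Main

set_option autoImplicit false

open WeierstrassCurve WeierstrassCurve.Affine

namespace Fermat.Agent.RedTors

/-- Manin's lemma for all elliptic curves over all prime fields (Team A's formulation). -/
def ManinForAll : Prop :=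
  ∀ {r : ℕ} [Fact r.Prime] (E : WeierstrassCurve (ZMod r)) (hΔ : E.Δ ≠ 0)
    [DecidableEq E.toAffine.FunctionField],
    Fermat.Agent.FrobRel.ManinStatement (W := E.toAffine) hΔ

theorem frobeniusRelationStatement_of_manin (hM : ManinForAll) : FrobeniusRelationStatement := by
  intro r _ E hΔ L _ _ _ F hF Q
  exact Fermat.Agent.FrobRel.frobenius_relation_of_manin (W := E.toAffine) hΔ (hM E hΔ) F hF Q

/-- **`HREL` from Manin's lemma.** -/
theorem relQbar_of_manin (hM : ManinForAll) (W : WeierstrassCurve ℤ) :
    Fermat.Agent.ES.Q58.TraceCong20.RelQbar W :=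
  relQbar_of_frobeniusRelation (frobeniusRelationStatement_of_manin hM) W

end Fermat.Agent.RedTors
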