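/-
RedTors (helper37): reduction of points of a Weierstrass curve modulo a valuation subring.
File 1: two polynomial identities satisfied by Mathlib's `slope` (valid for chords and tangents).
-/
import Mathlib

set_option autoImplicit false

open WeierstrassCurve WeierstrassCurve.Affine

namespace Fermat.Agent.RedTors.Slope

variable {F : Type*} [Field F] [DecidableEq F] {W : Affine F}

/-- numerator of the uniform slope: `N = x₁² + x₁x₂ + x₂² + a₂(x₁+x₂) + a₄ - a₁y₁`. -/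
def slopeNum (W : Affine F) (x₁ x₂ y₁ : F) : F :=
  x₁ ^ 2 + x₁ * x₂ + x₂ ^ 2 + W.a₂ * (x₁ + x₂) + W.a₄ - W.a₁ * y₁

omit [DecidableEq F] in
/-- the chord relation behind the uniform slope. -/
theorem sub_mul_slopeDen {x₁ x₂ y₁ y₂ : F} (h₁ : W.Equation x₁ y₁) (h₂ : W.Equation x₂ y₂) :
    (y₁ - y₂) * (y₁ - W.negY x₂ y₂) = (x₁ - x₂) * slopeNum W x₁ x₂ y₁ := by
  rw [equation_iff] at h₁ h₂
  simp only [negY, slopeNum]
  linear_combination h₁ - h₂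

/-- (S1) `λ (x₁ - x₂) = y₁ - y₂`. -/
theorem slope_mul_sub {x₁ x₂ y₁ y₂ : F} (h₁ : W.Equation x₁ y₁) (h₂ : W.Equation x₂ y₂)
    (hxy : ¬(x₁ = x₂ ∧ y₁ = W.negY x₂ y₂)) :
    W.slope x₁ x₂ y₁ y₂ * (x₁ - x₂) = y₁ - y₂ := by
  by_cases hx : x₁ = x₂
  · have hy : y₁ ≠ W.negY x₂ y₂ := fun h => hxy ⟨hx, h⟩
    have hyy : y₁ = y₂ := Y_eq_of_Y_ne h₁ h₂ hx hy
    rw [hx, hyy, sub_self, sub_self, mul_zero]
  · rw [slope_of_X_ne hx, div_mul_cancel₀ _ (sub_ne_zero.mpr hx)]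

/-- (S2) `λ (y₁ - negY x₂ y₂) = N`. -/
theorem slope_mul_den {x₁ x₂ y₁ y₂ : F} (h₁ : W.Equation x₁ y₁) (h₂ : W.Equation x₂ y₂)
    (hxy : ¬(x₁ = x₂ ∧ y₁ = W.negY x₂ y₂)) :
    W.slope x₁ x₂ y₁ y₂ * (y₁ - W.negY x₂ y₂) = slopeNum W x₁ x₂ y₁ := by
  by_cases hx : x₁ = x₂
  · have hy : y₁ ≠ W.negY x₂ y₂ := fun h => hxy ⟨hx, h⟩
    have hyy : y₁ = y₂ := Y_eq_of_Y_ne h₁ h₂ hx hy
    subst hx
    subst hyy
    rw [slope_of_Y_ne rfl hy, div_mul_cancel₀ _ (sub_ne_zero.mpr hy)]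
    simp only [slopeNum]
    ring
  · rw [slope_of_X_ne hx, div_mul_eq_mul_div, div_eq_iff (sub_ne_zero.mpr hx),
      sub_mul_slopeDen h₁ h₂]
    ring

end Fermat.Agent.RedTors.Slope
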