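/-
RedTors (helper37): reduction of points of a Weierstrass curve modulo a valuation subring.
File 2: the reduction relation / map for a curve `W₀` over a valuation subring `A ⊂ L`
whose special fibre is smooth, and its additivity.
-/
import Mathlib
import Fermat.Agent.RedTors.Slope
import Fermat.Agent.S05.Kernel

set_option autoImplicit false

open WeierstrassCurve WeierstrassCurve.Affine IsLocalRing

namespace Fermat.Agent.RedTors.RedMap

open Fermat.Agent.RedTors.Slope Fermat.Agent.S05.Kernel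

/-! ### Residues and valuations -/

section Residue

variable {L : Type*} [Field L] (A : ValuationSubring L)

theorem residue_eq_zero_iff_val (a : A) : residue A a = 0 ↔ A.valuation (a : L) < 1 := by
  rw [IsLocalRing.residue_eq_zero_iff, A.valuation_lt_one_iff]

theorem residue_ne_zero_iff_val (a : A) : residue A a ≠ 0 ↔ A.valuation (a : L) = 1 := by
  rw [Ne, residue_eq_zero_iff_val]
  constructor
  · intro h
    exact le_antisymm (A.valuation_le_one a) (not_lt.mp h)
  · intro h
    rw [h]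
    exact lt_irrefl _

theorem residue_eq_iff_val (a b : A) :
    residue A a = residue A b ↔ A.valuation ((a : L) - (b : L)) < 1 := by
  rw [← sub_eq_zero, ← map_sub, residue_eq_zero_iff_val]
  rfl

theorem coe_unit_inv (u : Aˣ) : (((u⁻¹ : Aˣ) : A) : L) = ((u : A) : L)⁻¹ := by
  have h : (u : A) * ((u⁻¹ : Aˣ) : A) = 1 := u.mul_inv
  have h1 : algebraMap A L (u : A) * algebraMap A L ((u⁻¹ : Aˣ) : A) = 1 := by
    rw [← map_mul, h, map_one]
  exact eq_inv_of_mul_eq_one_right h1

theorem residue_unit_inv (u : Aˣ) :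
    residue A ((u⁻¹ : Aˣ) : A) = (residue A (u : A))⁻¹ := by
  have h1 : residue A (u : A) * residue A ((u⁻¹ : Aˣ) : A) = 1 := by
    rw [← map_mul, u.mul_inv, map_one]
  exact eq_inv_of_mul_eq_one_right h1

theorem isUnit_of_residue_ne_zero {a : A} (h : residue A a ≠ 0) : IsUnit a := by
  by_contra hu
  exact h ((IsLocalRing.residue_eq_zero_iff a).mpr ((IsLocalRing.mem_maximalIdeal a).mpr hu))

end Residue

/-! ### The two fibres -/

section Fibres

variable {L : Type*} [Field L] {A : ValuationSubring L} (W₀ : WeierstrassCurve A)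

/-- the generic fibre. -/
abbrev EL : Affine L := (W₀.map (algebraMap A L)).toAffine

/-- the special fibre. -/
abbrev Ek : Affine (ResidueField A) := (W₀.map (residue A)).toAffine

theorem integralCoeffs : IntegralCoeffs A.valuation (EL W₀) := by
  refine ⟨?_, ?_, ?_, ?_, ?_⟩ <;>
  · simp only [WeierstrassCurve.map_a₁, WeierstrassCurve.map_a₂, WeierstrassCurve.map_a₃,
      WeierstrassCurve.map_a₄, WeierstrassCurve.map_a₆]
    exact A.valuation_le_one _

theorem equation_L_iff (a b : A) :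
    (EL W₀).Equation (a : L) (b : L) ↔ W₀.toAffine.Equation a b :=
  Affine.map_equation (W := W₀.toAffine) (f := algebraMap A L)
    (FaithfulSMul.algebraMap_injective A L) a b

theorem equation_k {a b : A} (h : W₀.toAffine.Equation a b) :
    (Ek W₀).Equation (residue A a) (residue A b) :=
  Affine.Equation.map (W := W₀.toAffine) (residue A) h

theorem negY_L (a b : A) : (EL W₀).negY (a : L) (b : L) = ((W₀.toAffine.negY a b : A) : L) :=
  Affine.map_negY (W' := W₀.toAffine) (f := algebraMap A L) a b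

theorem negY_k (a b : A) :
    (Ek W₀).negY (residue A a) (residue A b) = residue A (W₀.toAffine.negY a b) :=
  Affine.map_negY (W' := W₀.toAffine) (f := residue A) a b

end Fibres

/-! ### Reduction of the slope -/

section SlopeRed

variable {L : Type*} [Field L] [DecidableEq L] {A : ValuationSubring L}
  [DecidableEq (ResidueField A)] (W₀ : WeierstrassCurve A)

/-- the numerator of the uniform slope, over the valuation ring. -/
def numA (a₁ a₂ b₁ : A) : A :=
  a₁ ^ 2 + a₁ * a₂ + a₂ ^ 2 + W₀.a₂ * (a₁ + a₂) + W₀.a₄ - W₀.a₁ * b₁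

omit [DecidableEq L] [DecidableEq (ResidueField A)] in
theorem numA_L (a₁ a₂ b₁ : A) :
    ((numA W₀ a₁ a₂ b₁ : A) : L) = slopeNum (EL W₀) (a₁ : L) (a₂ : L) (b₁ : L) := by
  simp only [numA, slopeNum, WeierstrassCurve.map_a₁, WeierstrassCurve.map_a₂,
    WeierstrassCurve.map_a₄, ValuationSubring.algebraMap_apply]
  push_cast
  ring

omit [DecidableEq L] [DecidableEq (ResidueField A)] in
theorem numA_k (a₁ a₂ b₁ : A) :
    residue A (numA W₀ a₁ a₂ b₁) =
      slopeNum (Ek W₀) (residue A a₁) (residue A a₂) (residue A b₁) := by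
  simp only [numA, slopeNum, WeierstrassCurve.map_a₁, WeierstrassCurve.map_a₂,
    WeierstrassCurve.map_a₄, map_add, map_sub, map_mul, map_pow]

/-- **Reduction of the slope.**  If the reductions of two integral points are not opposite, the
slope of the line through them is integral and reduces to the slope of the reduced points. -/
theorem slope_reduction {a₁ a₂ b₁ b₂ : A}
    (h₁ : W₀.toAffine.Equation a₁ b₁) (h₂ : W₀.toAffine.Equation a₂ b₂)
    (hxy : ¬(residue A a₁ = residue A a₂ ∧
      residue A b₁ = (Ek W₀).negY (residue A a₂) (residue A b₂))) :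
    ¬((a₁ : L) = a₂ ∧ (b₁ : L) = (EL W₀).negY a₂ b₂) ∧
    ∃ l : A, (l : L) = (EL W₀).slope a₁ a₂ b₁ b₂ ∧
      residue A l =
        (Ek W₀).slope (residue A a₁) (residue A a₂) (residue A b₁) (residue A b₂) := by
  have hxyL : ¬((a₁ : L) = a₂ ∧ (b₁ : L) = (EL W₀).negY a₂ b₂) := by
    rintro ⟨hx, hy⟩
    apply hxy
    rw [negY_L] at hy
    have hx' : a₁ = a₂ := Subtype.ext hx
    have hy' : b₁ = W₀.toAffine.negY a₂ b₂ := Subtype.ext hy
    rw [negY_k, ← hy', hx']
    exact ⟨rfl, rfl⟩
  refine ⟨hxyL, ?_⟩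
  have e₁ : (EL W₀).Equation (a₁ : L) (b₁ : L) := (equation_L_iff W₀ a₁ b₁).mpr h₁
  have e₂ : (EL W₀).Equation (a₂ : L) (b₂ : L) := (equation_L_iff W₀ a₂ b₂).mpr h₂
  have k₁ := equation_k W₀ h₁
  have k₂ := equation_k W₀ h₂
  have S1 := slope_mul_sub e₁ e₂ hxyL
  have S2 := slope_mul_den e₁ e₂ hxyL
  by_cases hx : residue A a₁ = residue A a₂
  · -- tangent-like case: the denominator `b₁ - negY a₂ b₂` is a unit
    have hy : residue A b₁ ≠ (Ek W₀).negY (residue A a₂) (residue A b₂) := fun h => hxy ⟨hx, h⟩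
    set d : A := b₁ - W₀.toAffine.negY a₂ b₂ with hd
    have hdk : residue A d = residue A b₁ - (Ek W₀).negY (residue A a₂) (residue A b₂) := by
      rw [hd, map_sub, negY_k]
    have hdne : residue A d ≠ 0 := by
      rw [hdk]; exact sub_ne_zero.mpr hy
    obtain ⟨u, hu⟩ := isUnit_of_residue_ne_zero A hdne
    refine ⟨numA W₀ a₁ a₂ b₁ * ((u⁻¹ : Aˣ) : A), ?_, ?_⟩
    · have hdL : ((d : A) : L) = (b₁ : L) - (EL W₀).negY a₂ b₂ := by
        rw [hd, negY_L]; push_cast; ring
      have hdL0 : ((d : A) : L) ≠ 0 := by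
        intro h0
        apply hdne
        have : d = 0 := Subtype.ext h0
        rw [this, map_zero]
      have huinv : (((u⁻¹ : Aˣ) : A) : L) = ((d : A) : L)⁻¹ := by
        rw [← hu]
        exact coe_unit_inv A u
      rw [← hdL] at S2
      push_cast
      rw [numA_L, huinv, ← S2, mul_assoc, mul_inv_cancel₀ hdL0, mul_one]
    · have hyy : residue A b₁ = residue A b₂ := Y_eq_of_Y_ne k₁ k₂ hx hy
      rw [slope_of_Y_ne hx hy, map_mul, numA_k]
      have hinv : residue A ((u⁻¹ : Aˣ) : A) = (residue A d)⁻¹ := by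
        rw [← hu]
        exact residue_unit_inv A u
      rw [hinv, hdk, div_eq_mul_inv]
      congr 1
      · simp only [slopeNum]
        rw [← hx]
        ring
      · rw [← hx, hyy]
  · -- chord case: `a₁ - a₂` is a unit
    set d : A := a₁ - a₂ with hd
    have hdk : residue A d = residue A a₁ - residue A a₂ := by rw [hd, map_sub]
    have hdne : residue A d ≠ 0 := by
      rw [hdk]; exact sub_ne_zero.mpr hx
    obtain ⟨u, hu⟩ := isUnit_of_residue_ne_zero A hdne
    refine ⟨(b₁ - b₂) * ((u⁻¹ : Aˣ) : A), ?_, ?_⟩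
    · have hdL : ((d : A) : L) = (a₁ : L) - (a₂ : L) := by
        rw [hd]; push_cast; ring
      have hdL0 : ((d : A) : L) ≠ 0 := by
        intro h0
        apply hdne
        have : d = 0 := Subtype.ext h0
        rw [this, map_zero]
      have huinv : (((u⁻¹ : Aˣ) : A) : L) = ((d : A) : L)⁻¹ := by
        rw [← hu]
        exact coe_unit_inv A u
      rw [← hdL] at S1
      push_cast
      rw [huinv, ← S1, mul_assoc, mul_inv_cancel₀ hdL0, mul_one]
    · rw [slope_of_X_ne hx, map_mul, map_sub]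
      have hinv : residue A ((u⁻¹ : Aˣ) : A) = (residue A d)⁻¹ := by
        rw [← hu]
        exact residue_unit_inv A u
      rw [hinv, hdk, div_eq_mul_inv]

omit [DecidableEq (ResidueField A)] in
/-- transport of a point along equalities of coordinates. -/
theorem some_eq_some {F : Type*} [Field F] {W : Affine F} {x y x' y' : F}
    (h : W.Nonsingular x y) (hx : x = x') (hy : y = y') :
    ∃ h' : W.Nonsingular x' y', Point.some x y h = Point.some x' y' h' := by
  subst hx hy
  exact ⟨h, rfl⟩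

/-- **Case (B1/B2).**  The sum of two integral points whose reductions are not opposite is
integral and reduces to the sum of the reductions. -/
theorem add_reduction {a₁ a₂ b₁ b₂ : A}
    (hn₁ : (EL W₀).Nonsingular (a₁ : L) (b₁ : L)) (hn₂ : (EL W₀).Nonsingular (a₂ : L) (b₂ : L))
    (hk₁ : (Ek W₀).Nonsingular (residue A a₁) (residue A b₁))
    (hk₂ : (Ek W₀).Nonsingular (residue A a₂) (residue A b₂))
    (hxy : ¬(residue A a₁ = residue A a₂ ∧
      residue A b₁ = (Ek W₀).negY (residue A a₂) (residue A b₂))) :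
    ∃ (a₃ b₃ : A) (h₃ : (EL W₀).Nonsingular (a₃ : L) (b₃ : L))
      (hk₃ : (Ek W₀).Nonsingular (residue A a₃) (residue A b₃)),
      Point.some _ _ hn₁ + Point.some _ _ hn₂ = Point.some _ _ h₃ ∧
      Point.some _ _ hk₁ + Point.some _ _ hk₂ = Point.some _ _ hk₃ := by
  have h₁ := (equation_L_iff W₀ a₁ b₁).mp hn₁.1
  have h₂ := (equation_L_iff W₀ a₂ b₂).mp hn₂.1
  obtain ⟨hxyL, l, hl, hlk⟩ := slope_reduction W₀ h₁ h₂ hxy
  refine ⟨W₀.toAffine.addX a₁ a₂ l, W₀.toAffine.addY a₁ a₂ b₁ l, ?_⟩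
  have eX : (EL W₀).addX (a₁ : L) (a₂ : L) ((EL W₀).slope a₁ a₂ b₁ b₂)
      = ((W₀.toAffine.addX a₁ a₂ l : A) : L) := by
    rw [← hl]
    exact Affine.map_addX (W' := W₀.toAffine) (f := algebraMap A L) a₁ a₂ l
  have eY : (EL W₀).addY (a₁ : L) (a₂ : L) (b₁ : L) ((EL W₀).slope a₁ a₂ b₁ b₂)
      = ((W₀.toAffine.addY a₁ a₂ b₁ l : A) : L) := by
    rw [← hl]
    exact Affine.map_addY (W' := W₀.toAffine) (f := algebraMap A L) a₁ b₁ a₂ l
  have eXk : (Ek W₀).addX (residue A a₁) (residue A a₂)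
      ((Ek W₀).slope (residue A a₁) (residue A a₂) (residue A b₁) (residue A b₂))
      = residue A (W₀.toAffine.addX a₁ a₂ l) := by
    rw [← hlk]
    exact Affine.map_addX (W' := W₀.toAffine) (f := residue A) a₁ a₂ l
  have eYk : (Ek W₀).addY (residue A a₁) (residue A a₂) (residue A b₁)
      ((Ek W₀).slope (residue A a₁) (residue A a₂) (residue A b₁) (residue A b₂))
      = residue A (W₀.toAffine.addY a₁ a₂ b₁ l) := by
    rw [← hlk]
    exact Affine.map_addY (W' := W₀.toAffine) (f := residue A) a₁ b₁ a₂ l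
  obtain ⟨h₃, e₃⟩ := some_eq_some (nonsingular_add hn₁ hn₂ hxyL) eX eY
  obtain ⟨hk₃, ek₃⟩ := some_eq_some (nonsingular_add hk₁ hk₂ hxy) eXk eYk
  refine ⟨h₃, hk₃, ?_, ?_⟩
  · rw [Point.add_some hxyL, e₃]
  · rw [Point.add_some hxy, ek₃]

/-- **Case (B3).**  The sum of two integral points with opposite reductions lies in the kernel of
reduction. -/
theorem add_inE1 {a₁ a₂ b₁ b₂ : A}
    (hn₁ : (EL W₀).Nonsingular (a₁ : L) (b₁ : L)) (hn₂ : (EL W₀).Nonsingular (a₂ : L) (b₂ : L))
    (hk₁ : (Ek W₀).Nonsingular (residue A a₁) (residue A b₁))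
    (hx : residue A a₁ = residue A a₂)
    (hy : residue A b₁ = (Ek W₀).negY (residue A a₂) (residue A b₂)) :
    InE1 A.valuation (Point.some _ _ hn₁ + Point.some _ _ hn₂) := by
  by_cases hxyL : (a₁ : L) = a₂ ∧ (b₁ : L) = (EL W₀).negY a₂ b₂
  · rw [Point.add_of_Y_eq hxyL.1 hxyL.2]
    exact inE1_zero _
  rw [Point.add_some hxyL, inE1_some]
  have h₁ := (equation_L_iff W₀ a₁ b₁).mp hn₁.1
  have h₂ := (equation_L_iff W₀ a₂ b₂).mp hn₂.1
  have S1 := slope_mul_sub hn₁.1 hn₂.1 hxyL
  have S2 := slope_mul_den hn₁.1 hn₂.1 hxyL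
  set lam := (EL W₀).slope (a₁ : L) (a₂ : L) (b₁ : L) (b₂ : L) with hlam
  -- a product `lam * s = t` with `v s < 1`, `v t = 1` forces `1 < v lam`
  have key : ∀ s t : L, lam * s = t → A.valuation s < 1 → A.valuation t = 1 →
      1 < A.valuation lam := by
    intro s t hst hs ht
    by_contra hcon
    have hle : A.valuation lam ≤ 1 := not_lt.mp hcon
    have h1 : A.valuation (lam * s) ≤ 1 * A.valuation s := by
      rw [map_mul]; exact mul_le_mul' hle le_rfl
    rw [hst, ht, one_mul] at h1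
    exact absurd hs (not_lt.mpr h1)
  have hlam1 : 1 < A.valuation lam := by
    by_cases hb : residue A b₁ = residue A b₂
    · -- the reduction is a 2-torsion point: use (S2)
      refine key _ _ S2 ?_ ?_
      · have : ((b₁ : L) - (EL W₀).negY a₂ b₂) = ((b₁ - W₀.toAffine.negY a₂ b₂ : A) : L) := by
          rw [negY_L]; push_cast; ring
        rw [this, ← residue_eq_zero_iff_val, map_sub, ← negY_k, hy, sub_self]
      · rw [← numA_L, ← residue_ne_zero_iff_val, numA_k]
        have hns := (nonsingular_iff' _ _).mp hk₁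
        rcases hns.2 with h | h
        · intro h0
          apply h
          simp only [slopeNum] at h0
          rw [← hx] at h0
          linear_combination -h0
        · exfalso
          apply h
          have h3 := hy
          simp only [negY] at h3
          rw [← hx, ← hb] at h3
          linear_combination h3
    · -- use (S1)
      refine key _ _ S1 ?_ ?_
      · exact (residue_eq_iff_val A a₁ a₂).mp hx
      · have : ((b₁ : L) - (b₂ : L)) = ((b₁ - b₂ : A) : L) := by push_cast; ring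
        rw [this, ← residue_ne_zero_iff_val, map_sub]
        exact sub_ne_zero.mpr hb
  -- now estimate `addX`
  have hlamsq : A.valuation lam < A.valuation (lam ^ 2) := by
    rw [map_pow]
    calc A.valuation lam = A.valuation lam ^ 1 := (pow_one _).symm
      _ < A.valuation lam ^ 2 := pow_lt_pow_right₀ hlam1 (by norm_num)
  have hrest : A.valuation ((EL W₀).a₁ * lam - (EL W₀).a₂ - (a₁ : L) - (a₂ : L))
      ≤ A.valuation lam := by
    obtain ⟨ha₁, ha₂, -, -, -⟩ := integralCoeffs W₀
    refine (A.valuation.map_sub_le (A.valuation.map_sub_le (A.valuation.map_sub_le ?_ ?_) ?_) ?_)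
    · exact vle_int_mul ha₁ le_rfl
    · exact ha₂.trans hlam1.le
    · exact (A.valuation_le_one a₁).trans hlam1.le
    · exact (A.valuation_le_one a₂).trans hlam1.le
  have e : (EL W₀).addX (a₁ : L) (a₂ : L) lam
      = lam ^ 2 + ((EL W₀).a₁ * lam - (EL W₀).a₂ - (a₁ : L) - (a₂ : L)) := by
    simp only [addX]; ring
  rw [e, A.valuation.map_add_eq_of_lt_left (lt_of_le_of_lt hrest hlamsq), map_pow]
  exact one_lt_pow₀ hlam1 (by norm_num)

end SlopeRed

/-! ### The reduction relation -/

section Rel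

variable {L : Type*} [Field L] [DecidableEq L] {A : ValuationSubring L}
  [DecidableEq (ResidueField A)] (W₀ : WeierstrassCurve A)

/-- `RedRel P R`: the point `R` of the special fibre is the reduction of the point `P` of the
generic fibre: either `P` lies in the kernel of reduction and `R = 0`, or `P = (a, b)` with
`a, b ∈ A` and `R = (ā, b̄)`. -/
def RedRel (P : (EL W₀).Point) (R : (Ek W₀).Point) : Prop :=
  (InE1 A.valuation P ∧ R = 0) ∨
  ∃ (a b : A) (h : (EL W₀).Nonsingular (a : L) (b : L))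
    (hk : (Ek W₀).Nonsingular (residue A a) (residue A b)),
    P = Point.some _ _ h ∧ R = Point.some _ _ hk

variable {W₀}

omit [DecidableEq L] [DecidableEq (ResidueField A)] in
theorem not_inE1_of_integral {a b : A} (h : (EL W₀).Nonsingular (a : L) (b : L)) :
    ¬ InE1 A.valuation (Point.some _ _ h) := by
  rw [inE1_some]
  exact not_lt.mpr (A.valuation_le_one a)

omit [DecidableEq L] [DecidableEq (ResidueField A)] in
theorem redRel_zero : RedRel W₀ 0 0 := Or.inl ⟨inE1_zero _, rfl⟩

omit [DecidableEq L] [DecidableEq (ResidueField A)] in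
theorem redRel_of_inE1 {P : (EL W₀).Point} (hP : InE1 A.valuation P) : RedRel W₀ P 0 :=
  Or.inl ⟨hP, rfl⟩

omit [DecidableEq L] [DecidableEq (ResidueField A)] in
theorem redRel_some {a b : A} (h : (EL W₀).Nonsingular (a : L) (b : L))
    (hk : (Ek W₀).Nonsingular (residue A a) (residue A b)) :
    RedRel W₀ (Point.some _ _ h) (Point.some _ _ hk) :=
  Or.inr ⟨a, b, h, hk, rfl, rfl⟩

omit [DecidableEq L] [DecidableEq (ResidueField A)] in
/-- the reduction is unique. -/
theorem RedRel.unique {P : (EL W₀).Point} {R R' : (Ek W₀).Point}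
    (h : RedRel W₀ P R) (h' : RedRel W₀ P R') : R = R' := by
  rcases h with ⟨hP, rfl⟩ | ⟨a, b, hn, hk, rfl, rfl⟩
  · rcases h' with ⟨-, rfl⟩ | ⟨a', b', hn', hk', rfl, rfl⟩
    · rfl
    · exact absurd hP (not_inE1_of_integral hn')
  · rcases h' with ⟨hP', rfl⟩ | ⟨a', b', hn', hk', he, rfl⟩
    · exact absurd hP' (not_inE1_of_integral hn)
    · rw [Point.some.injEq] at he
      have ha : a = a' := Subtype.ext he.1
      have hb : b = b' := Subtype.ext he.2
      subst ha
      subst hb
      rfl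

omit [DecidableEq L] [DecidableEq (ResidueField A)] in
/-- the kernel of the reduction relation. -/
theorem RedRel.eq_zero_iff {P : (EL W₀).Point} {R : (Ek W₀).Point} (h : RedRel W₀ P R) :
    R = 0 ↔ InE1 A.valuation P := by
  rcases h with ⟨hP, rfl⟩ | ⟨a, b, hn, hk, rfl, rfl⟩
  · exact ⟨fun _ => hP, fun _ => rfl⟩
  · constructor
    · intro h0
      exact absurd h0 (Point.some_ne_zero hk)
    · intro h0
      exact absurd h0 (not_inE1_of_integral hn)

omit [DecidableEq L] [DecidableEq (ResidueField A)] in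
/-- **existence of the reduction** when the special fibre is smooth. -/
theorem exists_redRel (hgood : (Ek W₀).Δ ≠ 0) (P : (EL W₀).Point) :
    ∃ R : (Ek W₀).Point, RedRel W₀ P R := by
  rcases P with _ | ⟨x, y, h⟩
  · exact ⟨0, redRel_zero⟩
  · by_cases hx : 1 < A.valuation x
    · exact ⟨0, redRel_of_inE1 ((inE1_some _ h).mpr hx)⟩
    · have hx' : A.valuation x ≤ 1 := not_lt.mp hx
      have hy' : A.valuation y ≤ 1 := by
        by_contra hy
        exact hx (vx_of_vy (integralCoeffs W₀) h.1 (not_le.mp hy))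
      have hxA : x ∈ A := (A.valuation_le_one_iff x).mp hx'
      have hyA : y ∈ A := (A.valuation_le_one_iff y).mp hy'
      have hn : (EL W₀).Nonsingular ((⟨x, hxA⟩ : A) : L) ((⟨y, hyA⟩ : A) : L) := h
      have hA := (equation_L_iff W₀ ⟨x, hxA⟩ ⟨y, hyA⟩).mp hn.1
      have hk := ((Ek W₀).equation_iff_nonsingular_of_Δ_ne_zero hgood).mp (equation_k W₀ hA)
      exact ⟨Point.some _ _ hk, Or.inr ⟨⟨x, hxA⟩, ⟨y, hyA⟩, hn, hk, rfl, rfl⟩⟩

omit [DecidableEq L] [DecidableEq (ResidueField A)] in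
/-- reduction commutes with negation. -/
theorem RedRel.neg {P : (EL W₀).Point} {R : (Ek W₀).Point} (h : RedRel W₀ P R) :
    RedRel W₀ (-P) (-R) := by
  rcases h with ⟨hP, rfl⟩ | ⟨a, b, hn, hk, rfl, rfl⟩
  · rw [Point.neg_zero]
    exact redRel_of_inE1 hP.neg
  · rw [Point.neg_some, Point.neg_some]
    have eL : (EL W₀).negY (a : L) (b : L) = ((W₀.toAffine.negY a b : A) : L) := negY_L W₀ a b
    have ek : (Ek W₀).negY (residue A a) (residue A b) = residue A (W₀.toAffine.negY a b) :=
      negY_k W₀ a b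
    obtain ⟨h₃, e₃⟩ := some_eq_some ((nonsingular_neg ..).mpr hn) rfl eL
    obtain ⟨hk₃, ek₃⟩ := some_eq_some ((nonsingular_neg ..).mpr hk) rfl ek
    rw [e₃, ek₃]
    exact redRel_some h₃ hk₃

/-- additivity for two integral points. -/
theorem redRel_add_integral {a₁ a₂ b₁ b₂ : A}
    (hn₁ : (EL W₀).Nonsingular (a₁ : L) (b₁ : L)) (hn₂ : (EL W₀).Nonsingular (a₂ : L) (b₂ : L))
    (hk₁ : (Ek W₀).Nonsingular (residue A a₁) (residue A b₁))
    (hk₂ : (Ek W₀).Nonsingular (residue A a₂) (residue A b₂)) :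
    RedRel W₀ (Point.some _ _ hn₁ + Point.some _ _ hn₂)
      (Point.some _ _ hk₁ + Point.some _ _ hk₂) := by
  by_cases hxy : residue A a₁ = residue A a₂ ∧
      residue A b₁ = (Ek W₀).negY (residue A a₂) (residue A b₂)
  · rw [Point.add_of_Y_eq hxy.1 hxy.2]
    exact redRel_of_inE1 (add_inE1 W₀ hn₁ hn₂ hk₁ hxy.1 hxy.2)
  · obtain ⟨a₃, b₃, h₃, hk₃, e, ek⟩ := add_reduction W₀ hn₁ hn₂ hk₁ hk₂ hxy
    rw [e, ek]
    exact redRel_some h₃ hk₃

/-- additivity for two points outside the kernel of reduction. -/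
theorem redRel_add_of_not_inE1 {P₁ P₂ : (EL W₀).Point} {R₁ R₂ : (Ek W₀).Point}
    (h₁ : RedRel W₀ P₁ R₁) (h₂ : RedRel W₀ P₂ R₂) (hi₁ : ¬ InE1 A.valuation P₁)
    (hi₂ : ¬ InE1 A.valuation P₂) : RedRel W₀ (P₁ + P₂) (R₁ + R₂) := by
  rcases h₁ with ⟨hP₁, -⟩ | ⟨a₁, b₁, hn₁, hk₁, rfl, rfl⟩
  · exact absurd hP₁ hi₁
  rcases h₂ with ⟨hP₂, -⟩ | ⟨a₂, b₂, hn₂, hk₂, rfl, rfl⟩
  · exact absurd hP₂ hi₂
  exact redRel_add_integral hn₁ hn₂ hk₁ hk₂

/-- an integral point plus a point of the kernel of reduction. -/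
theorem redRel_add_inE1 (hgood : (Ek W₀).Δ ≠ 0) {a b : A}
    (hn : (EL W₀).Nonsingular (a : L) (b : L))
    (hk : (Ek W₀).Nonsingular (residue A a) (residue A b))
    {P : (EL W₀).Point} (hP : InE1 A.valuation P) :
    RedRel W₀ (Point.some _ _ hn + P) (Point.some _ _ hk) := by
  obtain ⟨RQ, hQ⟩ := exists_redRel hgood (Point.some _ _ hn + P)
  have hW := integralCoeffs W₀
  have hQ' := hQ
  rcases hQ with ⟨hQ1, rfl⟩ | ⟨a', b', hn', hk', e, rfl⟩
  · -- the sum is in the kernel: then so is the integral point, absurd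
    exfalso
    have h1 : Point.some _ _ hn + P ∈ E1 A.valuation (EL W₀) hW := hQ1
    have h2 : P ∈ E1 A.valuation (EL W₀) hW := hP
    have h3 : Point.some _ _ hn ∈ E1 A.valuation (EL W₀) hW := by
      have := (E1 A.valuation (EL W₀) hW).sub_mem h1 h2
      rwa [add_sub_cancel_right] at this
    exact not_inE1_of_integral hn h3
  · -- the sum is integral: subtract
    have hneg := (redRel_some hn hk).neg
    have hi₁ : ¬ InE1 A.valuation (Point.some _ _ hn + P) := by
      rw [e]; exact not_inE1_of_integral hn'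
    have hi₂ : ¬ InE1 A.valuation (-Point.some _ _ hn) := by
      intro h
      have := h.neg
      rw [neg_neg] at this
      exact not_inE1_of_integral hn this
    have hsum := redRel_add_of_not_inE1 hQ' hneg hi₁ hi₂
    rw [add_neg_cancel_comm] at hsum
    have h0 := (redRel_of_inE1 hP).unique hsum
    have : Point.some _ _ hk' = Point.some _ _ hk := by
      have := h0.symm
      rwa [← sub_eq_add_neg, sub_eq_zero] at this
    rw [← this]
    exact hQ'

/-- **additivity of the reduction.** -/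
theorem RedRel.add (hgood : (Ek W₀).Δ ≠ 0) {P₁ P₂ : (EL W₀).Point} {R₁ R₂ : (Ek W₀).Point}
    (h₁ : RedRel W₀ P₁ R₁) (h₂ : RedRel W₀ P₂ R₂) : RedRel W₀ (P₁ + P₂) (R₁ + R₂) := by
  have hW := integralCoeffs W₀
  rcases h₁ with ⟨hP₁, rfl⟩ | ⟨a₁, b₁, hn₁, hk₁, rfl, rfl⟩
  · rcases h₂ with ⟨hP₂, rfl⟩ | ⟨a₂, b₂, hn₂, hk₂, rfl, rfl⟩
    · rw [add_zero]
      exact redRel_of_inE1 ((E1 A.valuation (EL W₀) hW).add_mem hP₁ hP₂)
    · rw [zero_add, add_comm]
      exact redRel_add_inE1 hgood hn₂ hk₂ hP₁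
  · rcases h₂ with ⟨hP₂, rfl⟩ | ⟨a₂, b₂, hn₂, hk₂, rfl, rfl⟩
    · rw [add_zero]
      exact redRel_add_inE1 hgood hn₁ hk₁ hP₂
    · exact redRel_add_integral hn₁ hn₂ hk₁ hk₂

end Rel

end Fermat.Agent.RedTors.RedMap
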