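/-
RedTors (helper37): reduction of points of a Weierstrass curve modulo a valuation subring.
File 3: the reduction homomorphism `red : E(L) →+ Ẽ(k)` (smooth special fibre), its kernel, its
injectivity on torsion prime to the residue characteristic, and its compatibility with ring
endomorphisms of `L` stabilising the valuation ring (decomposition group, Frobenius, inertia).
-/
import Mathlib
import Fermat.Agent.RedTors.RedMap

set_option autoImplicit false

open WeierstrassCurve WeierstrassCurve.Affine IsLocalRing

namespace Fermat.Agent.RedTors.RedHom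

open Fermat.Agent.RedTors.RedMap Fermat.Agent.S05.Kernel

section Hom

variable {L : Type*} [Field L] [DecidableEq L] {A : ValuationSubring L}
  [DecidableEq (ResidueField A)] (W₀ : WeierstrassCurve A) (hgood : (Ek W₀).Δ ≠ 0)

/-- **The reduction homomorphism** of a Weierstrass curve over a valuation ring with smooth special
fibre. -/
noncomputable def red : (EL W₀).Point →+ (Ek W₀).Point :=
  AddMonoidHom.mk' (fun P => Classical.choose (exists_redRel hgood P)) (by
    intro P Q
    exact (Classical.choose_spec (exists_redRel hgood (P + Q))).unique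
      ((Classical.choose_spec (exists_redRel hgood P)).add hgood
        (Classical.choose_spec (exists_redRel hgood Q))))

variable {W₀}

theorem redRel_red (P : (EL W₀).Point) : RedRel W₀ P (red W₀ hgood P) :=
  Classical.choose_spec (exists_redRel hgood P)

theorem red_eq_of_redRel {P : (EL W₀).Point} {R : (Ek W₀).Point} (h : RedRel W₀ P R) :
    red W₀ hgood P = R :=
  (redRel_red hgood P).unique h

/-- the kernel of reduction is `E₁`. -/
theorem red_eq_zero_iff (P : (EL W₀).Point) : red W₀ hgood P = 0 ↔ InE1 A.valuation P :=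
  (redRel_red hgood P).eq_zero_iff

theorem red_some {a b : A} (h : (EL W₀).Nonsingular (a : L) (b : L))
    (hk : (Ek W₀).Nonsingular (residue A a) (residue A b)) :
    red W₀ hgood (Point.some _ _ h) = Point.some _ _ hk :=
  red_eq_of_redRel hgood (redRel_some h hk)

/-- a point killed by `n`, `n` a unit of `A`, which reduces to zero is zero. -/
theorem eq_zero_of_red_eq_zero {n : ℕ} (hn : A.valuation (n : L) = 1) {P : (EL W₀).Point}
    (hP : n • P = 0) (h : red W₀ hgood P = 0) : P = 0 :=
  eq_zero_of_nsmul_eq_zero (integralCoeffs W₀) ((red_eq_zero_iff hgood P).mp h) hn hP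

/-- **reduction is injective on the `n`-torsion**, `n` a unit of `A`. -/
theorem eq_of_red_eq {n : ℕ} (hn : A.valuation (n : L) = 1) {P Q : (EL W₀).Point}
    (hP : n • P = 0) (hQ : n • Q = 0) (h : red W₀ hgood P = red W₀ hgood Q) : P = Q := by
  have h1 : n • (P - Q) = 0 := by rw [smul_sub, hP, hQ, sub_zero]
  have h2 : red W₀ hgood (P - Q) = 0 := by rw [map_sub, h, sub_self]
  exact sub_eq_zero.mp (eq_zero_of_red_eq_zero hgood hn h1 h2)

end Hom

/-! ### Coordinatewise action of a ring endomorphism fixing the curve -/

section MapPt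

variable {F : Type*} [Field F] {E : Affine F}

/-- the coordinatewise action on points of a ring endomorphism `f` of the base field fixing the
coefficients of the curve. -/
def mapPt (f : F →+* F) (hf : E.map f = E) : E.Point → E.Point
  | .zero => .zero
  | .some x y h => .some (f x) (f y)
      (hf ▸ (Affine.map_nonsingular (W := E) f.injective x y).mpr h : E.Nonsingular (f x) (f y))

@[simp] theorem mapPt_zero (f : F →+* F) (hf : E.map f = E) : mapPt f hf (0 : E.Point) = 0 := rfl

theorem mapPt_some (f : F →+* F) (hf : E.map f = E) {x y : F} (h : E.Nonsingular x y) :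
    ∃ h' : E.Nonsingular (f x) (f y), mapPt f hf (Point.some x y h) = Point.some _ _ h' :=
  ⟨_, rfl⟩

end MapPt

section Compat

variable {L : Type*} [Field L] [DecidableEq L] {A : ValuationSubring L}
  [DecidableEq (ResidueField A)] {W₀ : WeierstrassCurve A}

omit [DecidableEq L] [DecidableEq (ResidueField A)] in
/-- **Compatibility of the reduction with endomorphisms.**  Let `s` be a ring endomorphism of `L`
with `s x ∈ A ↔ x ∈ A`, inducing `g` on the residue field, both fixing the curve.  Then
`P ↦ s P` reduces to `R ↦ g R`. -/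
theorem redRel_mapPt (s : L →+* L) (g : ResidueField A →+* ResidueField A)
    (hmem : ∀ x : L, s x ∈ A ↔ x ∈ A)
    (hres : ∀ (a : A) (h : s (a : L) ∈ A), residue A ⟨s (a : L), h⟩ = g (residue A a))
    (hs : (EL W₀).map s = EL W₀) (hg : (Ek W₀).map g = Ek W₀)
    {P : (EL W₀).Point} {R : (Ek W₀).Point} (h : RedRel W₀ P R) :
    RedRel W₀ (mapPt s hs P) (mapPt g hg R) := by
  rcases h with ⟨hP, rfl⟩ | ⟨a, b, hn, hk, rfl, rfl⟩
  · refine redRel_of_inE1 ?_
    rcases hP with rfl | ⟨x, y, hxy, rfl, hx⟩
    · exact inE1_zero _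
    · obtain ⟨h', e⟩ := mapPt_some s hs hxy
      rw [e, inE1_some]
      by_contra hcon
      have h1 : s x ∈ A := (A.valuation_le_one_iff _).mp (not_lt.mp hcon)
      have h2 : x ∈ A := (hmem x).mp h1
      exact absurd ((A.valuation_le_one_iff _).mpr h2) (not_le.mpr hx)
  · obtain ⟨h', e⟩ := mapPt_some s hs hn
    obtain ⟨hk', ek⟩ := mapPt_some g hg hk
    rw [e, ek]
    have ha : s (a : L) ∈ A := (hmem _).mpr a.2
    have hb : s (b : L) ∈ A := (hmem _).mpr b.2
    have h'' : (EL W₀).Nonsingular ((⟨s (a : L), ha⟩ : A) : L) ((⟨s (b : L), hb⟩ : A) : L) := h'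
    obtain ⟨hk'', ek''⟩ := some_eq_some hk' (hres a ha).symm (hres b hb).symm
    rw [ek'']
    exact redRel_some h'' hk''

variable (hgood : (Ek W₀).Δ ≠ 0)

theorem red_mapPt (s : L →+* L) (g : ResidueField A →+* ResidueField A)
    (hmem : ∀ x : L, s x ∈ A ↔ x ∈ A)
    (hres : ∀ (a : A) (h : s (a : L) ∈ A), residue A ⟨s (a : L), h⟩ = g (residue A a))
    (hs : (EL W₀).map s = EL W₀) (hg : (Ek W₀).map g = Ek W₀) (P : (EL W₀).Point) :
    red W₀ hgood (mapPt s hs P) = mapPt g hg (red W₀ hgood P) :=
  red_eq_of_redRel hgood (redRel_mapPt s g hmem hres hs hg (redRel_red hgood P))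

end Compat

end Fermat.Agent.RedTors.RedHom
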