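/-
RedTors (helper37): reduction of points of a Weierstrass curve modulo a valuation subring.
File 4: integral Weierstrass models over `ℤ`, places of a field `L` over a prime; Frobenius and
inertia elements; transfer of the Frobenius relation from the special fibre to the prime-to-`r`
torsion of the generic fibre, and triviality of inertia on that torsion (good reduction).
-/
import Mathlib
import Fermat.Prelude.Def_FLTPrelim_Ramification
import Fermat.Prelude.Def_FLTPrelim_Modularity
import Fermat.Prelude.Def_EllipticCurve_FrobeniusTrace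
import Fermat.Agent.RedTors.RedHom
import Fermat.Agent.S05.Inertia

set_option autoImplicit false

open WeierstrassCurve WeierstrassCurve.Affine IsLocalRing

namespace Fermat.Agent.RedTors.Galois

open Fermat.Agent.RedTors.RedMap Fermat.Agent.RedTors.RedHom Fermat.Agent.S05.Kernel

/-! ### Transport of points along an equality of curves -/

section Cast

variable {F : Type*} [Field F] [DecidableEq F] {E₁ E₂ : Affine F}

/-- transport of points along an equality of curves. -/
def pointCast (h : E₁ = E₂) : E₁.Point ≃+ E₂.Point := h ▸ AddEquiv.refl _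

@[simp] theorem pointCast_zero (h : E₁ = E₂) : pointCast h 0 = 0 := map_zero _

theorem pointCast_some (h : E₁ = E₂) {x y : F} (hxy : E₁.Nonsingular x y) :
    ∃ hxy' : E₂.Nonsingular x y, pointCast h (Point.some x y hxy) = Point.some x y hxy' := by
  subst h
  exact ⟨hxy, rfl⟩

end Cast

/-! ### Integral models over `ℤ` -/

section Model

variable {L : Type*} [Field L] (A : ValuationSubring L) (W : WeierstrassCurve ℤ)

/-- the model over the valuation ring. -/
abbrev WA : WeierstrassCurve A := W.map (Int.castRingHom A)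

theorem EL_eq : EL (WA A W) = (W.map (Int.castRingHom L)).toAffine := by
  change (W.map (Int.castRingHom A)).map (algebraMap A L) = W.map (Int.castRingHom L)
  rw [WeierstrassCurve.map_map]
  exact congrArg W.map (RingHom.ext_int _ _)

theorem Ek_eq : Ek (WA A W) = (W.map (Int.castRingHom (ResidueField A))).toAffine := by
  change (W.map (Int.castRingHom A)).map (residue A) = W.map (Int.castRingHom (ResidueField A))
  rw [WeierstrassCurve.map_map]
  exact congrArg W.map (RingHom.ext_int _ _)

theorem EL_map_eq (s : L →+* L) : (EL (WA A W)).map s = EL (WA A W) := by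
  change ((W.map (Int.castRingHom A)).map (algebraMap A L)).map s
    = (W.map (Int.castRingHom A)).map (algebraMap A L)
  rw [WeierstrassCurve.map_map, WeierstrassCurve.map_map, WeierstrassCurve.map_map]
  exact congrArg W.map (RingHom.ext_int _ _)

theorem Ek_map_eq (g : ResidueField A →+* ResidueField A) :
    (Ek (WA A W)).map g = Ek (WA A W) := by
  change ((W.map (Int.castRingHom A)).map (residue A)).map g
    = (W.map (Int.castRingHom A)).map (residue A)
  rw [WeierstrassCurve.map_map, WeierstrassCurve.map_map, WeierstrassCurve.map_map]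
  exact congrArg W.map (RingHom.ext_int _ _)

/-- If `A` lies over the prime `r`, its residue field has characteristic `r`. -/
theorem charP_residueField {r : ℕ} (hr : r.Prime) (hA : A.LiesOverPrime r) :
    CharP (ResidueField A) r := by
  rw [CharP.charP_iff_prime_eq_zero hr]
  obtain ⟨hmem, hmax⟩ := ValuationSubring.mem_nonunits_iff_exists_mem_maximalIdeal.mp hA
  have h1 : (⟨(r : L), hmem⟩ : A) = ((r : ℕ) : A) := Subtype.ext (by simp)
  rw [h1, ← IsLocalRing.residue_eq_zero_iff, map_natCast] at hmax
  exact hmax

/-- good reduction: the special fibre is smooth. -/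
theorem Ek_Δ_ne_zero {r : ℕ} (hr : r.Prime) (hA : A.LiesOverPrime r)
    (hgood : W.IsGoodPrimeFor r) : (Ek (WA A W)).Δ ≠ 0 := by
  have := charP_residueField A hr hA
  change ((W.map (Int.castRingHom A)).map (residue A)).Δ ≠ 0
  rw [WeierstrassCurve.map_Δ, WeierstrassCurve.map_Δ, eq_intCast, map_intCast]
  intro h0
  exact hgood ((CharP.intCast_eq_zero_iff (ResidueField A) r _).mp h0)

/-- a natural number prime to `r` is a unit at a place over `r`. -/
theorem valuation_natCast_eq_one {r : ℕ} (hr : r.Prime) (hA : A.LiesOverPrime r) {m : ℕ}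
    (hm : ¬ r ∣ m) : A.valuation ((m : ℕ) : L) = 1 := by
  have := charP_residueField A hr hA
  have h1 : residue A ((m : ℕ) : A) ≠ 0 := by
    rw [map_natCast]
    intro h0
    exact hm ((CharP.cast_eq_zero_iff (ResidueField A) r m).mp h0)
  have := (residue_ne_zero_iff_val A _).mp h1
  simpa using this

end Model

/-! ### Frobenius and inertia elements -/

section Action

variable {K L : Type*} [Field K] [Field L] [Algebra K L] {A : ValuationSubring L}

/-- The Frobenius congruence. -/
theorem frob_sub_pow_mem {σ : L ≃ₐ[K] L} {q : ℕ} (h : A.IsFrobeniusAt σ q) {x : L}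
    (hx : x ∈ A) : σ x - x ^ q ∈ A.nonunits := by
  set g : A.decompositionSubgroup K := ⟨σ, h.mem_decompositionSubgroup⟩ with hg
  set xA : A := ⟨x, hx⟩ with hxA
  have h1 := h.smul_residue_eq (IsLocalRing.residue A xA)
  rw [← IsLocalRing.ResidueField.residue_smul, ← map_pow, ← sub_eq_zero, ← map_sub,
    IsLocalRing.residue_eq_zero_iff, ← ValuationSubring.coe_mem_nonunits_iff] at h1
  exact h1

/-- a Frobenius element induces the `q`-power map on the residue field. -/
theorem residue_frob {σ : L ≃ₐ[K] L} {q : ℕ} (h : A.IsFrobeniusAt σ q) (a : A)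
    (ha : σ (a : L) ∈ A) : residue A ⟨σ (a : L), ha⟩ = residue A a ^ q := by
  rw [← map_pow, ← sub_eq_zero, ← map_sub, IsLocalRing.residue_eq_zero_iff,
    ← ValuationSubring.coe_mem_nonunits_iff]
  exact frob_sub_pow_mem h a.2

/-- an inertia element induces the identity on the residue field. -/
theorem residue_inertia {τ : L ≃ₐ[K] L} (h : τ ∈ A.inertiaSubgroupIn K) (a : A)
    (ha : τ (a : L) ∈ A) : residue A ⟨τ (a : L), ha⟩ = residue A a := by
  rw [← sub_eq_zero, ← map_sub, IsLocalRing.residue_eq_zero_iff,
    ← ValuationSubring.coe_mem_nonunits_iff]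
  exact Fermat.Agent.S05.Inertia.apply_sub_mem_nonunits h a.2

end Action

/-! ### The transfer theorems -/

section Transfer

variable {L : Type*} [Field L] [Algebra ℚ L] [DecidableEq L] (W : WeierstrassCurve ℤ)

omit [DecidableEq L] in
/-- the curve of the prelude, `(W_ℚ)⁄L`, is the generic fibre of the model over `A`. -/
theorem baseChange_eq_EL (A : ValuationSubring L) :
    ((W.map (Int.castRingHom ℚ))⁄L) = EL (WA A W) := by
  rw [EL_eq]
  change (W.map (Int.castRingHom ℚ)).map (algebraMap ℚ L) = W.map (Int.castRingHom L)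
  rw [WeierstrassCurve.map_map]
  exact congrArg W.map (RingHom.ext_int _ _)

/-- the Galois action commutes with multiplication by natural numbers. -/
theorem smul_nsmul_comm (σ : L ≃ₐ[ℚ] L) (n : ℕ) (Q : ((W.map (Int.castRingHom ℚ))⁄L).Point) :
    σ • (n • Q) = n • (σ • Q) :=
  map_nsmul (DistribSMul.toAddMonoidHom ((W.map (Int.castRingHom ℚ))⁄L).Point σ) n Q

/-- the Galois action of the prelude in the coordinates of the model. -/
theorem pointCast_smul (A : ValuationSubring L) (σ : L ≃ₐ[ℚ] L)
    (Q : ((W.map (Int.castRingHom ℚ))⁄L).Point) :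
    pointCast (baseChange_eq_EL W A) (σ • Q)
      = mapPt (σ : L →+* L) (EL_map_eq A W _) (pointCast (baseChange_eq_EL W A) Q) := by
  rcases Q with _ | ⟨x, y, h⟩
  · change pointCast (baseChange_eq_EL W A) 0
      = mapPt (σ : L →+* L) (EL_map_eq A W _) (pointCast (baseChange_eq_EL W A) 0)
    rw [pointCast_zero, mapPt_zero]
  · rw [Point.algEquiv_smul_def, Point.map_some]
    obtain ⟨h₁, e₁⟩ := pointCast_some (baseChange_eq_EL W A) h
    obtain ⟨h₂, e₂⟩ := pointCast_some (baseChange_eq_EL W A)
      ((WeierstrassCurve.Affine.baseChange_nonsingular (W.map (Int.castRingHom ℚ))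
        (f := σ.toAlgHom) σ.toAlgHom.injective x y).mpr h)
    rw [e₁, e₂]
    rfl

/-- the Frobenius relation on the special fibre at the place `A`, with an arbitrary integer `a`
in place of the trace, in coordinates. -/
def CharRel (A : ValuationSubring L) [DecidableEq (ResidueField A)] (a : ℤ) (r : ℕ) : Prop :=
  ∀ (x y : ResidueField A) (h : (Ek (WA A W)).Nonsingular x y)
    (h' : (Ek (WA A W)).Nonsingular (x ^ r) (y ^ r))
    (h'' : (Ek (WA A W)).Nonsingular ((x ^ r) ^ r) ((y ^ r) ^ r)),
    Point.some _ _ h'' - a • Point.some _ _ h' + r • Point.some _ _ h = 0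

variable {W}

/-- **Transfer of the Frobenius relation.**  At a good prime `r`, if the `r`-power Frobenius of
the special fibre satisfies `F² - a F + r = 0`, then every Frobenius element `σ` at a place `A`
over `r` satisfies `σ² - a σ + r = 0` on the points of `W(L)` killed by some `m` prime to `r`. -/
theorem relation_of_charRel {r : ℕ} (hr : r.Prime) (hgood : W.IsGoodPrimeFor r) {m : ℕ}
    (hrm : ¬ r ∣ m) {A : ValuationSubring L} (hA : A.LiesOverPrime r) {σ : L ≃ₐ[ℚ] L}
    (hσ : A.IsFrobeniusAt σ r) (a : ℤ)
    (hchar : ∀ [DecidableEq (ResidueField A)], CharRel W A a r)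
    (Q : ((W.map (Int.castRingHom ℚ))⁄L).Point) (hQ : m • Q = 0) :
    σ • σ • Q - a • (σ • Q) + r • Q = 0 := by
  classical
  have hchp := charP_residueField A hr hA
  have : ExpChar (ResidueField A) r := ExpChar.prime hr
  have hgk := Ek_Δ_ne_zero A W hr hA hgood
  have hvm := valuation_natCast_eq_one A hr hA hrm
  set c := pointCast (baseChange_eq_EL W A) with hc
  set s : L →+* L := (σ : L →+* L) with hs
  set g : ResidueField A →+* ResidueField A := frobenius (ResidueField A) r with hg
  have hmem : ∀ x : L, s x ∈ A ↔ x ∈ A := fun x =>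
    Fermat.Agent.S05.Inertia.apply_mem_iff_of_mem_decomposition hσ.mem_decompositionSubgroup x
  have hres : ∀ (b : A) (h : s (b : L) ∈ A), residue A ⟨s (b : L), h⟩ = g (residue A b) :=
    fun b h => residue_frob hσ b h
  have hcompat : ∀ P : (EL (WA A W)).Point, red (WA A W) hgk (mapPt s (EL_map_eq A W _) P)
      = mapPt g (Ek_map_eq A W _) (red (WA A W) hgk P) :=
    fun P => red_mapPt hgk s g hmem hres _ _ P
  -- the relation for `mapPt g`
  have hrel : ∀ R : (Ek (WA A W)).Point,
      mapPt g (Ek_map_eq A W _) (mapPt g (Ek_map_eq A W _) R)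
        - a • mapPt g (Ek_map_eq A W _) R + r • R = 0 := by
    intro R
    rcases R with _ | ⟨x, y, h⟩
    · change (0 : (Ek (WA A W)).Point) - a • (0 : (Ek (WA A W)).Point)
        + r • (0 : (Ek (WA A W)).Point) = 0
      rw [zsmul_zero, nsmul_zero, sub_zero, add_zero]
    · obtain ⟨h', e'⟩ := mapPt_some g (Ek_map_eq A W _) h
      rw [e']
      obtain ⟨h'', e''⟩ := mapPt_some g (Ek_map_eq A W _) h'
      rw [e'']
      exact hchar x y h h' h''
  -- the point `T`
  set T := σ • σ • Q - a • (σ • Q) + r • Q with hT
  have hmT : m • T = 0 := by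
    have h1 : m • (σ • Q) = 0 := by
      rw [← smul_nsmul_comm, hQ]
      rfl
    have h2 : m • (σ • σ • Q) = 0 := by
      rw [← smul_nsmul_comm, h1]
      rfl
    rw [hT, smul_add, smul_sub, h2, smul_comm m a, h1, smul_comm m r, hQ, smul_zero, smul_zero,
      sub_zero, add_zero]
  have hcT : c T = mapPt s (EL_map_eq A W _) (mapPt s (EL_map_eq A W _) (c Q))
      - a • mapPt s (EL_map_eq A W _) (c Q) + r • c Q := by
    rw [hT, map_add, map_sub, map_zsmul, map_nsmul, hc, pointCast_smul, pointCast_smul]
  have hredT : red (WA A W) hgk (c T) = 0 := by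
    rw [hcT, map_add, map_sub, map_zsmul, map_nsmul, hcompat, hcompat]
    exact hrel _
  have hmcT : m • c T = 0 := by rw [← map_nsmul, hmT, map_zero]
  have h0 : c T = 0 := eq_zero_of_red_eq_zero hgk hvm hmcT hredT
  exact (AddEquiv.map_eq_zero_iff c).mp h0

/-- **Inertia acts trivially on prime-to-`q` torsion at a prime `q` of good reduction.** -/
theorem inertia_smul_eq {q : ℕ} (hq : q.Prime) (hgood : W.IsGoodPrimeFor q) {m : ℕ}
    (hqm : ¬ q ∣ m) {A : ValuationSubring L} (hA : A.LiesOverPrime q) {τ : L ≃ₐ[ℚ] L}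
    (hτ : τ ∈ A.inertiaSubgroupIn ℚ)
    (Q : ((W.map (Int.castRingHom ℚ))⁄L).Point) (hQ : m • Q = 0) : τ • Q = Q := by
  classical
  have hgk := Ek_Δ_ne_zero A W hq hA hgood
  have hvm := valuation_natCast_eq_one A hq hA hqm
  set c := pointCast (baseChange_eq_EL W A) with hc
  set s : L →+* L := (τ : L →+* L) with hs
  have hmem : ∀ x : L, s x ∈ A ↔ x ∈ A := fun x =>
    Fermat.Agent.S05.Inertia.apply_mem_iff hτ x
  have hres : ∀ (b : A) (h : s (b : L) ∈ A),
      residue A ⟨s (b : L), h⟩ = (RingHom.id (ResidueField A)) (residue A b) :=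
    fun b h => residue_inertia hτ b h
  have hcompat := red_mapPt hgk s (RingHom.id _) hmem hres (EL_map_eq A W _)
    (Ek_map_eq A W _) (c Q)
  have hid : ∀ R : (Ek (WA A W)).Point, mapPt (RingHom.id _) (Ek_map_eq A W _) R = R := by
    intro R
    rcases R with _ | ⟨x, y, h⟩
    · rfl
    · rfl
  rw [hid, ← pointCast_smul] at hcompat
  have h1 : m • (τ • Q) = 0 := by
    rw [← smul_nsmul_comm, hQ]
    rfl
  have h2 : m • c (τ • Q) = 0 := by rw [← map_nsmul, h1, map_zero]
  have h3 : m • c Q = 0 := by rw [← map_nsmul, hQ, map_zero]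
  exact c.injective (eq_of_red_eq hgk hvm h2 h3 hcompat)

end Transfer

end Fermat.Agent.RedTors.Galois
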