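/-
S58 programme (helper21): **`RelQbar W` for every integral Weierstrass curve `W`, unconditionally**
(bricks (a) `FrobRel.frobenius_relation` + (b) `RedTors.relQbar_of_frobeniusRelation`), and the
field `trace` of `ECIface12.ECFacts W`.
-/
import Mathlib
import Fermat.Agent.RedTors.Adapter
import Fermat.Agent.FrobRel.Final

set_option autoImplicit false

open WeierstrassCurve WeierstrassCurve.Affine

namespace Fermat.Agent.RedTors

/-- brick (a), in the shape consumed by `relQbar_of_frobeniusRelation`. -/
theorem frobeniusRelationStatement : FrobeniusRelationStatement :=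
  fun {_} _ E hΔ {_} _ _ _ F hF Q => Fermat.Agent.FrobRel.frobenius_relation E hΔ F hF Q

/-- **The Eichler–Shimura relation on the odd prime-to-`r` torsion of `W(ℚ̄)`**, for every
integral Weierstrass curve and every good prime `r`. -/
theorem relQbar (W : WeierstrassCurve ℤ) : Fermat.Agent.ES.Q58.TraceCong20.RelQbar W :=
  relQbar_of_frobeniusRelation frobeniusRelationStatement W

/-- `HREL` of the S58 skeleton. -/
theorem hrel : ∀ W : WeierstrassCurve ℤ, W.Δ ≠ 0 → Fermat.Agent.ES.Q58.TraceCong20.RelQbar W :=
  fun W _ => relQbar W

end Fermat.Agent.RedTors
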